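/-
GATE-R (S17) / node GR-H-LT-DIAG (helper49), abstract core, Mathlib only.

**Divided differences at several points with a common centre are integral and reduce to the
Taylor coefficients** ("Claim A" / (DIAG) of the H-LOW design 4768), for ANY local ring `O`
(valuation rings of arbitrary rank included), with NO noetherian hypothesis on `O`, NO completion,
NO induction on the order.

Setting: `𝒪` a `k`-algebra essentially of finite type with an element `t` such that every
`f : 𝒪` is `c + t * g` (`c : k`) — the local ring of a curve at a `k`-rational point, `t` a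
uniformiser; `O` a local ring, `φ a : 𝒪 →ₐ[k] O` (`a : ι`, finite) with `φ a t ∈ 𝔪_O`.

* `jointEval_mem_adjoin` : `Φ f ∈ O[Φ t]` inside `O^ι`, `Φ = (φ a)_a` (monogenicity);
* `exists_polynomial`    : ONE `p : O[X]` with `φ a f = p.eval (φ a t)` for all `a`, and
  `p ≡ P mod 𝔪_O` if `f = P(t) + t ^ card ι * ρ`, `P : k[X]`;
* `dd_eval_eq`, `coeff_modByMonic_nodal_sub_mem` : Lagrange/Newton bookkeeping (Mathlib
  `Lagrange.coeff_eq_sum`);
* `dd_mem_and_residue`   : the divided difference `dd` of `f` over `S` is the image of some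
  `d : O` with `d ≡ P.coeff (#S - 1) mod 𝔪_O`.

Proof of monogenicity: `M := O`-span of `Φ(𝒪)` is a finitely generated `O`-module (it is the
`O`-algebra generated by `Φ(σ)`, `σ` the finite set of `EssFiniteType`: every element of `O^ι` is
integral over `O`, and inverses of units of `O^ι` lying in a subalgebra stay in it because
`∏_a (X - y a)` kills `y`), `M ≤ O[Φ t] + Φ(t)^card ι • M` by iterating `f = c + t g`, and
`Φ(t)^card ι ∈ 𝔪_O • O[Φ t]` because `∏_a (X - φ a t) ≡ X^card ι mod 𝔪_O`.  Nakayama.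
-/
import Mathlib

set_option autoImplicit false
set_option linter.unusedSectionVars false

namespace Fermat.Agent.GR.H.LT.DiagCore

open Polynomial IsLocalRing

section Pi

variable {O : Type*} [CommRing O] {ι : Type*} [Fintype ι]

theorem aeval_prod_X_sub_C_eq_zero (y : ι → O) :
    aeval y (∏ a : ι, (X - C (y a)) : O[X]) = 0 := by
  funext a
  have h := Polynomial.aeval_algHom_apply (Pi.evalAlgHom O (fun _ : ι => O) a) y
    (∏ a : ι, (X - C (y a)) : O[X])
  simp only [Pi.evalAlgHom_apply] at h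
  rw [← h]
  simp only [Pi.zero_apply, coe_aeval_eq_eval, eval_prod, eval_sub, eval_X, eval_C]
  exact Finset.prod_eq_zero (Finset.mem_univ a) (sub_self _)

theorem aeval_pi_apply (y : ι → O) (p : O[X]) (a : ι) : (aeval y p) a = p.eval (y a) := by
  have h := Polynomial.aeval_algHom_apply (Pi.evalAlgHom O (fun _ : ι => O) a) y p
  simp only [Pi.evalAlgHom_apply] at h
  rw [← h, coe_aeval_eq_eval]

theorem inv_mem_of_mem (E : Subalgebra O (ι → O)) {y z : ι → O} (hy : y ∈ E) (hyz : y * z = 1) :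
    z ∈ E := by
  classical
  set q : O[X] := ∏ a : ι, (X - C (y a)) with hq
  have hq0 : aeval y q = 0 := aeval_prod_X_sub_C_eq_zero y
  have hcoeff : q.coeff 0 = ∏ a : ι, (- y a) := by
    rw [hq, coeff_zero_eq_eval_zero, eval_prod]
    simp
  have hunit : IsUnit (q.coeff 0) := by
    rw [hcoeff]
    have : ∀ a : ι, IsUnit (- y a) := fun a => by
      have h1 : y a * z a = 1 := congrFun hyz a
      exact (IsUnit.of_mul_eq_one _ h1).neg
    exact IsUnit.prod_univ_iff.mpr this |>.elim fun u hu => ⟨u, hu⟩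
  obtain ⟨u, hu⟩ := hunit
  have hdec : aeval y q.divX * y + algebraMap O (ι → O) (q.coeff 0) = 0 := by
    rw [← hq0]
    conv_rhs => rw [← divX_mul_X_add q]
    simp
  have hz : z = - ((↑u⁻¹ : O) • aeval y q.divX) := by
    have h2 : (aeval y q.divX * y + algebraMap O (ι → O) (q.coeff 0)) * z = 0 := by
      rw [hdec, zero_mul]
    rw [add_mul, mul_assoc, hyz, mul_one, ← hu, Algebra.algebraMap_eq_smul_one, smul_mul_assoc,
      one_mul] at h2
    have h3 : (u : O) • z = - aeval y q.divX := eq_neg_of_add_eq_zero_right h2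
    calc z = (↑u⁻¹ : O) • ((u : O) • z) := by rw [smul_smul, Units.inv_mul, one_smul]
      _ = _ := by rw [h3, smul_neg]
  rw [hz]
  refine E.neg_mem (E.smul_mem ?_ _)
  have : aeval y q.divX = ((aeval (⟨y, hy⟩ : E) q.divX : E) : ι → O) :=
    (Subalgebra.aeval_coe E ⟨y, hy⟩ q.divX)
  rw [this]
  exact Subtype.property _

end Pi

section Core

variable {k 𝒪 O : Type*} [Field k] [CommRing 𝒪] [Algebra k 𝒪] [CommRing O] [IsLocalRing O]
  [Algebra k O] {ι : Type*} [Fintype ι]

theorem hdec_iterate (t : 𝒪)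
    (hdec : ∀ f : 𝒪, ∃ (c : k) (g : 𝒪), f = algebraMap k 𝒪 c + t * g) (n : ℕ) (f : 𝒪) :
    ∃ (P : k[X]) (g : 𝒪), P.degree < n ∧ f = aeval t P + t ^ n * g := by
  induction n with
  | zero => exact ⟨0, f, by simp, by simp⟩
  | succ n ih =>
    obtain ⟨P, g, hP, hf⟩ := ih
    obtain ⟨c, g', hg⟩ := hdec g
    refine ⟨P + C c * X ^ n, g', ?_, ?_⟩
    · refine lt_of_le_of_lt (degree_add_le _ _) (max_lt ?_ ?_)
      · exact lt_trans hP (by exact_mod_cast Nat.lt_succ_self n)
      · exact lt_of_le_of_lt (degree_C_mul_X_pow_le n c) (by exact_mod_cast Nat.lt_succ_self n)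
    · rw [hf, hg]
      simp only [map_add, map_mul, aeval_C, map_pow, aeval_X]
      ring

noncomputable def lowPoly (θ : ι → O) : O[X] := X ^ Fintype.card ι - ∏ a : ι, (X - C (θ a))

theorem lowPoly_coeff_mem (θ : ι → O) (hθ : ∀ a, θ a ∈ maximalIdeal O) (j : ℕ) :
    (lowPoly θ).coeff j ∈ maximalIdeal O := by
  have h : (lowPoly θ).map (residue O) = 0 := by
    unfold lowPoly
    rw [Polynomial.map_sub, Polynomial.map_pow, map_X, Polynomial.map_prod]
    have : ∀ a : ι, ((X - C (θ a) : O[X])).map (residue O) = X := fun a => by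
      rw [Polynomial.map_sub, map_X, map_C, (residue_eq_zero_iff _).mpr (hθ a), C_0, sub_zero]
    simp [this]
  have := congrArg (fun q => q.coeff j) h
  simp only [coeff_map, coeff_zero] at this
  exact (residue_eq_zero_iff _).mp this

theorem aeval_lowPoly (θ : ι → O) : aeval θ (lowPoly θ) = θ ^ Fintype.card ι := by
  unfold lowPoly
  rw [map_sub, aeval_prod_X_sub_C_eq_zero, sub_zero, map_pow, aeval_X]

/-- the joint evaluation `𝒪 → O^ι` -/
noncomputable def jointEval (φ : ι → 𝒪 →ₐ[k] O) : 𝒪 →ₐ[k] (ι → O) :=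
  AlgHom.pi φ

@[simp] theorem jointEval_apply (φ : ι → 𝒪 →ₐ[k] O) (f : 𝒪) (a : ι) :
    jointEval φ f a = φ a f := rfl

/-- **Monogenicity**: the joint evaluation of every `f : 𝒪` is a polynomial in the joint
evaluation of `t`, with coefficients in `O`. -/
theorem jointEval_mem_adjoin [Algebra.EssFiniteType k 𝒪] (t : 𝒪)
    (hdec : ∀ f : 𝒪, ∃ (c : k) (g : 𝒪), f = algebraMap k 𝒪 c + t * g)
    (φ : ι → 𝒪 →ₐ[k] O) (hτ : ∀ a, φ a t ∈ maximalIdeal O) (f : 𝒪) :
    jointEval φ f ∈ Algebra.adjoin O {jointEval φ t} := by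
  classical
  set Φ := jointEval φ with hΦ
  set θ : ι → O := Φ t with hθ
  have hθm : ∀ a, θ a ∈ maximalIdeal O := hτ
  obtain ⟨σ, hσ⟩ := (Algebra.essFiniteType_iff (R := k) (S := 𝒪)).mp inferInstance
  -- the finitely generated algebra `E`
  set E : Subalgebra O (ι → O) := Algebra.adjoin O (Φ '' (σ : Set 𝒪)) with hE
  have hEfg : E.toSubmodule.FG :=
    fg_adjoin_of_finite (σ.finite_toSet.image Φ) (fun x _ => IsIntegral.of_finite O x)
  -- Claim A
  have hA : ∀ x ∈ Algebra.adjoin k (σ : Set 𝒪), Φ x ∈ E := by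
    intro x hx
    induction hx using Algebra.adjoin_induction with
    | mem x hx => exact Algebra.subset_adjoin ⟨x, hx, rfl⟩
    | algebraMap c =>
      rw [AlgHom.commutes, IsScalarTower.algebraMap_apply k O (ι → O)]
      exact E.algebraMap_mem _
    | add x y _ _ hx hy => rw [map_add]; exact E.add_mem hx hy
    | mul x y _ _ hx hy => rw [map_mul]; exact E.mul_mem hx hy
  -- Claim C
  have hC : ∀ g : 𝒪, Φ g ∈ E := by
    intro g
    obtain ⟨u, hu, huu, hgu⟩ := hσ g
    obtain ⟨u', hu'⟩ := huu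
    have h1 : Φ u * Φ (↑u'⁻¹ : 𝒪) = 1 := by
      rw [← map_mul, ← hu', Units.mul_inv, map_one]
    have h2 : Φ (↑u'⁻¹ : 𝒪) ∈ E := inv_mem_of_mem E (hA u hu) h1
    have h3 : Φ g = Φ (g * u) * Φ (↑u'⁻¹ : 𝒪) := by
      rw [← map_mul, ← hu', mul_assoc, Units.mul_inv, mul_one]
    rw [h3]
    exact E.mul_mem (hA _ hgu) h2
  -- the span of the image
  set M : Submodule O (ι → O) := Submodule.span O (Set.range Φ) with hM
  have hME : M ≤ E.toSubmodule := Submodule.span_le.mpr (by rintro _ ⟨g, rfl⟩; exact hC g)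
  have hMmul : ∀ x ∈ M, ∀ y ∈ M, x * y ∈ M := by
    intro x hx y hy
    have h1 : x * y ∈ M * M := Submodule.mul_mem_mul hx hy
    have h2 : M * M ≤ M := by
      rw [hM, Submodule.span_mul_span]
      refine Submodule.span_mono ?_
      rintro _ ⟨_, ⟨g, rfl⟩, _, ⟨g', rfl⟩, rfl⟩
      exact ⟨g * g', map_mul _ _ _⟩
    exact h2 h1
  have h1M : (1 : ι → O) ∈ M := Submodule.subset_span ⟨1, map_one _⟩
  have hEM : E.toSubmodule ≤ M := by
    have : E ≤ Submodule.toSubalgebra M h1M (fun x y hx hy => hMmul x hx y hy) :=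
      Algebra.adjoin_le (by rintro _ ⟨g, _, rfl⟩; exact Submodule.subset_span ⟨g, rfl⟩)
    intro x hx
    exact this hx
  have hMfg : M.FG := by
    have : M = E.toSubmodule := le_antisymm hME hEM
    rw [this]; exact hEfg
  -- the Nakayama inequality
  set E₀ : Submodule O (ι → O) := (Algebra.adjoin O {θ}).toSubmodule with hE₀
  have hNN : M ≤ E₀ ⊔ maximalIdeal O • M := by
    refine Submodule.span_le.mpr ?_
    rintro _ ⟨g, rfl⟩
    obtain ⟨P, g', -, hg⟩ := hdec_iterate t hdec (Fintype.card ι) g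
    have h1 : Φ g = aeval θ (P.map (algebraMap k O)) + θ ^ Fintype.card ι * Φ g' := by
      rw [hg, map_add, map_mul, map_pow, ← Polynomial.aeval_algHom_apply,
        Polynomial.aeval_map_algebraMap]
    rw [SetLike.mem_coe, h1]
    refine Submodule.add_mem_sup ?_ ?_
    · exact Polynomial.aeval_mem_adjoin_singleton _ _
    · rw [← aeval_lowPoly, Polynomial.aeval_eq_sum_range, Finset.sum_mul]
      refine Submodule.sum_mem _ fun j _ => ?_
      rw [smul_mul_assoc]
      refine Submodule.smul_mem_smul (lowPoly_coeff_mem θ hθm j) ?_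
      refine Submodule.subset_span ⟨t ^ j * g', ?_⟩
      rw [map_mul, map_pow]
  have hfinal : M ≤ E₀ :=
    Submodule.le_of_le_smul_of_le_jacobson_bot hMfg (IsLocalRing.maximalIdeal_le_jacobson _) hNN
  exact hfinal (Submodule.subset_span ⟨f, rfl⟩)


/-- **Polynomial form** of the joint evaluation, with the Taylor congruence. -/
theorem exists_polynomial [Algebra.EssFiniteType k 𝒪] (t : 𝒪)
    (hdec : ∀ f : 𝒪, ∃ (c : k) (g : 𝒪), f = algebraMap k 𝒪 c + t * g)
    (φ : ι → 𝒪 →ₐ[k] O) (hτ : ∀ a, φ a t ∈ maximalIdeal O) (f : 𝒪) (P : k[X]) (ρ : 𝒪)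
    (hf : f = aeval t P + t ^ Fintype.card ι * ρ) :
    ∃ p : O[X], (∀ a, φ a f = p.eval (φ a t)) ∧
      ∀ j, p.coeff j - algebraMap k O (P.coeff j) ∈ maximalIdeal O := by
  classical
  have hρ := jointEval_mem_adjoin t hdec φ hτ ρ
  rw [Algebra.adjoin_singleton_eq_range_aeval] at hρ
  obtain ⟨r, hr⟩ := hρ
  have hr' : aeval (jointEval φ t) r = jointEval φ ρ := hr
  refine ⟨P.map (algebraMap k O) + lowPoly (jointEval φ t) * r, fun a => ?_, fun j => ?_⟩
  · have h1 : jointEval φ f =
        aeval (jointEval φ t) (P.map (algebraMap k O) + lowPoly (jointEval φ t) * r) := by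
      rw [map_add (aeval (jointEval φ t)), map_mul (aeval (jointEval φ t)),
        Polynomial.aeval_map_algebraMap, aeval_lowPoly, hr', hf, map_add, map_mul, map_pow,
        ← Polynomial.aeval_algHom_apply]
    have h2 := congrFun h1 a
    rw [aeval_pi_apply] at h2
    exact h2
  · rw [coeff_add, coeff_map, add_sub_cancel_left, coeff_mul]
    exact Ideal.sum_mem _ fun x _ =>
      Ideal.mul_mem_right _ _ (lowPoly_coeff_mem (jointEval φ t) hτ _)

theorem exists_polynomial' [Algebra.EssFiniteType k 𝒪] (t : 𝒪)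
    (hdec : ∀ f : 𝒪, ∃ (c : k) (g : 𝒪), f = algebraMap k 𝒪 c + t * g)
    (φ : ι → 𝒪 →ₐ[k] O) (hτ : ∀ a, φ a t ∈ maximalIdeal O) (f : 𝒪) :
    ∃ p : O[X], ∀ a, φ a f = p.eval (φ a t) := by
  obtain ⟨P, ρ, -, hf⟩ := hdec_iterate t hdec (Fintype.card ι) f
  obtain ⟨p, hp, -⟩ := exists_polynomial t hdec φ hτ f P ρ hf
  exact ⟨p, hp⟩

end Core

section DD

variable {O KK : Type*} [CommRing O] [IsLocalRing O] [Field KK] [Algebra O KK]
  {ι : Type*} [DecidableEq ι]

/-- the symmetric (Lagrange) divided difference of the values `y` at the nodes `v` over `S` -/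
noncomputable def dd (v y : ι → KK) (S : Finset ι) : KK :=
  ∑ a ∈ S, y a / ∏ c ∈ S.erase a, (v a - v c)

/-- divided differences of polynomial values with coefficients in `O` at nodes in `O` are the
top coefficient of the remainder modulo the nodal polynomial -/
theorem dd_eval_eq (τ : ι → O) (S : Finset ι)
    (hinj : Set.InjOn (fun a => algebraMap O KK (τ a)) S) (p : O[X]) :
    dd (fun a => algebraMap O KK (τ a)) (fun a => algebraMap O KK (p.eval (τ a))) S =
      algebraMap O KK ((p %ₘ Lagrange.nodal S τ).coeff (S.card - 1)) := by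
  classical
  have hmon : (Lagrange.nodal S τ).Monic := Lagrange.nodal_monic
  set r := p %ₘ Lagrange.nodal S τ with hr
  have hdeg : (r.map (algebraMap O KK)).degree < S.card := by
    refine lt_of_le_of_lt (degree_map_le) ?_
    have := degree_modByMonic_lt p hmon
    rwa [Lagrange.degree_nodal] at this
  have h := Lagrange.coeff_eq_sum hinj hdeg
  rw [coeff_map] at h
  rw [h, dd]
  refine Finset.sum_congr rfl fun a ha => ?_
  congr 1
  rw [eval_map, eval₂_at_apply]
  congr 1
  have h1 := congrArg (fun q => q.eval (τ a)) (modByMonic_add_div p (Lagrange.nodal S τ))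
  simp only [eval_add, eval_mul, Lagrange.eval_nodal_at_node ha, zero_mul, add_zero] at h1
  exact h1.symm

theorem coeff_modByMonic_nodal_sub_mem (τ : ι → O) (S : Finset ι)
    (hτ : ∀ a ∈ S, τ a ∈ maximalIdeal O) (p : O[X]) {j : ℕ} (hj : j < S.card) :
    (p %ₘ Lagrange.nodal S τ).coeff j - p.coeff j ∈ maximalIdeal O := by
  classical
  have hmon : (Lagrange.nodal S τ).Monic := Lagrange.nodal_monic
  have h1 : (Lagrange.nodal S τ).map (residue O) = X ^ S.card := by
    rw [Lagrange.nodal_eq, Polynomial.map_prod]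
    have : ∀ a ∈ S, ((X - C (τ a) : O[X])).map (residue O) = X := fun a ha => by
      rw [Polynomial.map_sub, map_X, map_C, (residue_eq_zero_iff _).mpr (hτ a ha), C_0, sub_zero]
    rw [Finset.prod_congr rfl this, Finset.prod_const]
  have h2 : (p %ₘ Lagrange.nodal S τ).map (residue O) = p.map (residue O) %ₘ X ^ S.card := by
    rw [map_modByMonic _ hmon, h1]
  have h3 : ((p.map (residue O)) %ₘ X ^ S.card).coeff j = (p.map (residue O)).coeff j := by
    have hm : (X ^ S.card : (ResidueField O)[X]).Monic := monic_X_pow _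
    have h4 := congrArg (fun q => q.coeff j) (modByMonic_add_div (p.map (residue O)) (X ^ S.card))
    simp only [coeff_add] at h4
    rw [coeff_X_pow_mul', if_neg (by omega), add_zero] at h4
    exact h4
  have h5 : residue O ((p %ₘ Lagrange.nodal S τ).coeff j - p.coeff j) = 0 := by
    rw [map_sub, ← coeff_map, ← coeff_map, h2, h3, sub_self]
  exact (residue_eq_zero_iff _).mp h5

end DD

section Main

variable {k 𝒪 O KK : Type*} [Field k] [CommRing 𝒪] [Algebra k 𝒪] [CommRing O] [IsLocalRing O]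
  [Algebra k O] [Field KK] [Algebra O KK] {ι : Type*} [DecidableEq ι]

/-- **DIAG, abstract form.**  Divided differences of `f : 𝒪` at the points `φ a` (`a ∈ S`), all
centred at the closed point of `𝒪`, lie in `O`, and reduce to the Taylor coefficient. -/
theorem dd_mem_and_residue [Algebra.EssFiniteType k 𝒪] (t : 𝒪)
    (hdec : ∀ f : 𝒪, ∃ (c : k) (g : 𝒪), f = algebraMap k 𝒪 c + t * g)
    (φ : ι → 𝒪 →ₐ[k] O) (S : Finset ι) (hS : S.Nonempty)
    (hτ : ∀ a ∈ S, φ a t ∈ maximalIdeal O)
    (hinj : Set.InjOn (fun a => algebraMap O KK (φ a t)) S)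
    (f : 𝒪) (P : k[X]) (ρ : 𝒪) (hf : f = aeval t P + t ^ S.card * ρ) :
    ∃ d : O, algebraMap O KK d =
        dd (fun a => algebraMap O KK (φ a t)) (fun a => algebraMap O KK (φ a f)) S ∧
      d - algebraMap k O (P.coeff (S.card - 1)) ∈ maximalIdeal O := by
  classical
  have hcard : Fintype.card (↥S) = S.card := Fintype.card_coe S
  obtain ⟨p, hp, hpc⟩ := exists_polynomial (ι := ↥S) t hdec (fun a => φ a.1)
    (fun a => hτ a.1 a.2) f P ρ (by rw [hcard]; exact hf)
  refine ⟨(p %ₘ Lagrange.nodal S (fun a => φ a t)).coeff (S.card - 1), ?_, ?_⟩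
  · rw [← dd_eval_eq (fun a => φ a t) S hinj p]
    unfold dd
    refine Finset.sum_congr rfl fun a ha => ?_
    have h : φ a f = p.eval (φ a t) := hp ⟨a, ha⟩
    beta_reduce
    rw [h]
  · have hpos : S.card - 1 < S.card := Nat.sub_lt (Finset.card_pos.mpr hS) one_pos
    have h1 := coeff_modByMonic_nodal_sub_mem (fun a => φ a t) S hτ p hpos
    have h2 := hpc (S.card - 1)
    have := Ideal.add_mem _ h1 h2
    simpa using this

end Main

end Fermat.Agent.GR.H.LT.DiagCore
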