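/-
GATE-R (S17) / node GR-H-LT-DIAG (helper49), part 2: **helper6's Newton package
(`GR/H/Newton.lean`) for ANY local ring `B`** — no noetherian hypothesis on `B`, so `B` can be the
valuation ring `O` itself (arbitrary rank); the price is `[Algebra.EssFiniteType k Oc]` on the
source, which is ON MAIN for the valuation ring of every place
(`S24_helper38.essFiniteType_place`).  Same statements, same vocabulary (`Newton.dd`,
`Newton.nodeK`, `Newton.valK`, `Newton.IsTaylor`, `Newton.newtonU`), so consumers switch by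
changing the namespace.

* `exists_taylor_expansion` : `IsTaylor t n f c → ∃ P ρ, f = P(t) + t^(n+1) ρ ∧ P.coeff n = c`;
* `exists_eq_dd`, `exists_eq_dd_taylor` : divided differences are integral / reduce to Taylor
  coefficients (from `DiagCore.dd_mem_and_residue`);
* `exists_newton_factor`, `exists_newton_factor_matrix`, `exists_det_factor` : helper6's
  derivations verbatim on top of the two statements above.
-/
import Fermat.Agent.GR.H.LT.DiagCore
import Fermat.Agent.GR.H.Newton

set_option autoImplicit false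

open Finset

namespace Fermat.Agent.GR.H.LT.Diag

open Fermat.Agent.GR.H.Newton

section Integral

variable {k : Type*} [Field k] {Oc : Type*} [CommRing Oc] [Algebra k Oc]
variable {B : Type*} [CommRing B] [Algebra k B]
variable {K : Type*} [Field K] [Algebra B K]
variable {ι : Type*} [DecidableEq ι]

/-- A Taylor coefficient in the sense of `Newton.IsTaylor` comes from a polynomial expansion. -/
theorem exists_taylor_expansion (t : Oc) :
    ∀ (n : ℕ) (f : Oc) (c : k), IsTaylor t n f c →
      ∃ (P : Polynomial k) (ρ : Oc), f = Polynomial.aeval t P + t ^ (n + 1) * ρ ∧ P.coeff n = c := by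
  intro n
  induction n with
  | zero =>
    rintro f c ⟨g, hg⟩
    exact ⟨Polynomial.C c, g, by rw [hg, Polynomial.aeval_C, zero_add, pow_one], by simp⟩
  | succ n ih =>
    rintro f c ⟨c₀, g, hfg, hg⟩
    obtain ⟨P, ρ, hP, hc⟩ := ih g c hg
    refine ⟨Polynomial.C c₀ + Polynomial.X * P, ρ, ?_, ?_⟩
    · rw [hfg, hP]
      simp only [map_add, map_mul, Polynomial.aeval_C, Polynomial.aeval_X]
      ring
    · rw [Polynomial.coeff_add, Polynomial.coeff_C_succ, zero_add, Polynomial.coeff_X_mul, hc]

variable [IsLocalRing B] [Algebra.EssFiniteType k Oc]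

/-- **Integrality of divided differences**, for ANY local ring `B` (compare
`Newton.exists_eq_dd`, which asks `B` noetherian). -/
theorem exists_eq_dd (t : Oc) (hdec : ∀ f : Oc, ∃ (c : k) (g : Oc), f = algebraMap k Oc c + t * g)
    (φ : ι → Oc →ₐ[k] B) (ht : ∀ a, φ a t ∈ IsLocalRing.maximalIdeal B) :
    ∀ (n : ℕ) (S : Finset ι), S.card = n → Set.InjOn (nodeK K t φ) S → ∀ f : Oc,
      ∃ d : B, algebraMap B K d = dd (nodeK K t φ) (valK K φ f) S := by
  intro n S hS hT f
  rcases S.eq_empty_or_nonempty with rfl | hne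
  · exact ⟨0, by simp⟩
  · obtain ⟨P, ρ, -, hf⟩ := DiagCore.hdec_iterate t hdec S.card f
    obtain ⟨d, hd, -⟩ := DiagCore.dd_mem_and_residue (KK := K) t hdec φ S hne
      (fun a _ => ht a) hT f P ρ hf
    exact ⟨d, hd⟩

/-- **Divided differences reduce to Taylor coefficients**, for ANY local ring `B` (compare
`Newton.exists_eq_dd_taylor`). -/
theorem exists_eq_dd_taylor (t : Oc)
    (hdec : ∀ f : Oc, ∃ (c : k) (g : Oc), f = algebraMap k Oc c + t * g)
    (φ : ι → Oc →ₐ[k] B) (ht : ∀ a, φ a t ∈ IsLocalRing.maximalIdeal B) :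
    ∀ (n : ℕ) (S : Finset ι), S.card = n + 1 → Set.InjOn (nodeK K t φ) S → ∀ (f : Oc) (c : k),
      IsTaylor t n f c →
      ∃ d : B, algebraMap B K d = dd (nodeK K t φ) (valK K φ f) S ∧
        d - algebraMap k B c ∈ IsLocalRing.maximalIdeal B := by
  intro n S hS hT f c hc
  have hne : S.Nonempty := Finset.card_pos.mp (by omega)
  obtain ⟨P, ρ, hf, hPc⟩ := exists_taylor_expansion t n f c hc
  obtain ⟨d, hd, hres⟩ := DiagCore.dd_mem_and_residue (KK := K) t hdec φ S hne
    (fun a _ => ht a) hT f P ρ (by rw [hS]; exact hf)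
  refine ⟨d, hd, ?_⟩
  rw [hS, Nat.add_sub_cancel, hPc] at hres
  exact hres

end Integral

section Matrix

variable {k : Type*} [Field k] {Oc : Type*} [CommRing Oc] [Algebra k Oc]
variable {B : Type*} [CommRing B] [Algebra k B]
variable {K : Type*} [Field K] [Algebra B K]
variable [IsLocalRing B] [Algebra.EssFiniteType k Oc]

/-- **Newton factorisation of an evaluation matrix**, for ANY local ring `B` (helper6's
`Newton.exists_newton_factor` without the noetherian hypothesis). -/
theorem exists_newton_factor (t : Oc)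
    (hdec : ∀ f : Oc, ∃ (c : k) (g : Oc), f = algebraMap k Oc c + t * g)
    (φ : ℕ → Oc →ₐ[k] B) (ht : ∀ a, φ a t ∈ IsLocalRing.maximalIdeal B)
    (hBK : Function.Injective (algebraMap B K)) (s : ℕ)
    (hT : Set.InjOn (nodeK K t φ) (range s)) {m : Type*} (f : m → Oc) :
    ∃ D : Matrix (Fin s) m B,
      (∀ (i : Fin s) (j : m), φ i (f j) = ∑ l : Fin s, newtonU t φ s i l * D l j) ∧
      (∀ (i : Fin s) (j : m) (c : k), IsTaylor t i (f j) c →
        D i j - algebraMap k B c ∈ IsLocalRing.maximalIdeal B) ∧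
      (∀ (i : Fin s) (j : m), algebraMap B K (D i j)
        = dd (nodeK K t φ) (valK K φ (f j)) (range (i + 1))) := by
  have hsub : ∀ i : Fin s, ((range (i + 1) : Finset ℕ) : Set ℕ) ⊆ range s := by
    intro i x hx
    have := i.2
    simp only [coe_range, Set.mem_Iio] at hx ⊢
    omega
  have hex : ∀ (i : Fin s) (j : m), ∃ d : B,
      algebraMap B K d = dd (nodeK K t φ) (valK K φ (f j)) (range (i + 1)) := fun i j =>
    exists_eq_dd (K := K) t hdec φ ht (i + 1) (range (i + 1)) (by simp)
      (hT.mono (hsub i)) (f j)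
  choose D hD using hex
  refine ⟨D, ?_, ?_, hD⟩
  · intro i j
    apply hBK
    have hN := newton_interp (nodeK K t φ) (valK K φ (f j)) i (hT.mono (hsub i))
    have hlhs : algebraMap B K (φ i (f j)) = valK K φ (f j) i := rfl
    rw [hlhs, hN, map_sum]
    set G : ℕ → K := fun n => if n ≤ (i : ℕ) then
      (∏ m ∈ range n, (nodeK K t φ i - nodeK K t φ m))
        * dd (nodeK K t φ) (valK K φ (f j)) (range (n + 1)) else 0 with hG
    have hR : ∀ x : Fin s, algebraMap B K (newtonU t φ s i x * D x j) = G x := by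
      intro x
      simp only [hG, newtonU, map_mul, hD]
      split_ifs with h
      · simp only [map_prod, map_sub, nodeK]
      · simp
    rw [Finset.sum_congr rfl fun x _ => hR x, Fin.sum_univ_eq_sum_range G s]
    have hss : range ((i : ℕ) + 1) ⊆ range s := by
      intro x hx
      have := i.2
      rw [mem_range] at hx ⊢
      omega
    rw [← Finset.sum_subset hss]
    · refine Finset.sum_congr rfl fun n hn => ?_
      rw [mem_range] at hn
      simp only [hG]
      rw [if_pos (by omega)]
    · intro n _ hn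
      rw [mem_range] at hn
      simp only [hG]
      rw [if_neg (by omega)]
  · intro i j c hc
    obtain ⟨d, hd, hres⟩ := exists_eq_dd_taylor (K := K) t hdec φ ht i (range (i + 1))
      (by simp) (hT.mono (hsub i)) (f j) c hc
    have : d = D i j := hBK (by rw [hd, hD])
    rw [← this]; exact hres

/-- Matrix form of `exists_newton_factor`. -/
theorem exists_newton_factor_matrix (t : Oc)
    (hdec : ∀ f : Oc, ∃ (c : k) (g : Oc), f = algebraMap k Oc c + t * g)
    (φ : ℕ → Oc →ₐ[k] B) (ht : ∀ a, φ a t ∈ IsLocalRing.maximalIdeal B)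
    (hBK : Function.Injective (algebraMap B K)) (s : ℕ)
    (hT : Set.InjOn (nodeK K t φ) (range s)) {m : Type*} (f : m → Oc) :
    ∃ D : Matrix (Fin s) m B,
      (Matrix.of fun (i : Fin s) (j : m) => φ i (f j)) = newtonU t φ s * D ∧
      (∀ (i : Fin s) (j : m) (c : k), IsTaylor t i (f j) c →
        D i j - algebraMap k B c ∈ IsLocalRing.maximalIdeal B) := by
  obtain ⟨D, h1, h2, -⟩ := exists_newton_factor (K := K) t hdec φ ht hBK s hT f
  refine ⟨D, ?_, h2⟩
  ext i j
  rw [Matrix.of_apply, Matrix.mul_apply]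
  exact h1 i j

/-- **Valuative Vandermonde in one disc, determinant form**, for ANY local ring `B`. -/
theorem exists_det_factor (t : Oc)
    (hdec : ∀ f : Oc, ∃ (c : k) (g : Oc), f = algebraMap k Oc c + t * g)
    (φ : ℕ → Oc →ₐ[k] B) (ht : ∀ a, φ a t ∈ IsLocalRing.maximalIdeal B)
    (hBK : Function.Injective (algebraMap B K)) (s : ℕ)
    (hT : Set.InjOn (nodeK K t φ) (range s)) (f : Fin s → Oc) :
    ∃ D : Matrix (Fin s) (Fin s) B,
      (Matrix.of fun (i j : Fin s) => φ i (f j)).det
        = (∏ i : Fin s, ∏ m ∈ range i, (φ i t - φ m t)) * D.det ∧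
      (∀ (i j : Fin s) (c : k), IsTaylor t i (f j) c →
        D i j - algebraMap k B c ∈ IsLocalRing.maximalIdeal B) := by
  obtain ⟨D, h1, h2⟩ := exists_newton_factor_matrix (K := K) t hdec φ ht hBK s hT f
  exact ⟨D, by rw [h1, Matrix.det_mul, det_newtonU], h2⟩

end Matrix

end Fermat.Agent.GR.H.LT.Diag
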