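/-
GATE-R (S17) / node GR-H-LT-DIAG (helper49), part 3: **the instance on the Prelude `Place` API.**

`F / k` a function field with a generator (`[IsGen k x]`), `k` algebraically closed of
characteristic zero; `v : Place k F`, `t` a uniformiser at `v`; `O` a valuation subring (ANY rank)
of a field `KK ⊇ k`; `φ a : F →ₐ[k] KK` points of the curve with values in `KK` whose CENTRE is `v`
for `a ∈ S` (`φ a g ∈ O ↔ g ∈ O_v`), with pairwise distinct parameters `φ a t` on `S`.  Then for
`s = ∑_{j < #S} c_j t^j + t^#S r`, `r ∈ O_v`: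

* `diag` : the divided difference `dd (φ · t) (φ · s) S` (helper6's `Newton.dd` = helper21's `ddS`)
  lies in `O`, and it is congruent to the Taylor coefficient `c (#S - 1)` modulo the nonunits.

Hypotheses ONLY on `S` (helper3 4859 (4)); the Taylor expansion in EXISTENCE form (helper48 4863:
`Place.ord 0 = 0`, so an `ord`-inequality would be unsatisfiable for polynomials in `t`).
Inputs: `DiagCore.dd_mem_and_residue` (any local ring), `S24_helper38.essFiniteType_place`,
`S24_helper38.residueTrivial_of_isGen`.
-/
import Fermat.Agent.GR.H.LT.Diag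
import Fermat.Agent.S24_helper38.EssFiniteGen

set_option autoImplicit false
set_option linter.style.haveILetI false

open AlgebraicCurve Finset

namespace Fermat.Agent.GR.H.LT.DiagPlace

open Fermat.Agent.S24 Fermat.Agent.GR.H.Newton
open Fermat.Agent.S24_helper38 (ResidueTrivial essFiniteType_place residueTrivial_of_isGen)

section Basic

variable {k F : Type*} [Field k] [Field F] [Algebra k F]

/-- a uniformiser lies in the valuation ring -/
theorem mem_of_ord_eq_one (v : Place k F) {t : F} (ht : v.ord t = 1) :
    t ∈ v.toValuationSubring := by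
  have ht0 : t ≠ 0 := by rintro rfl; simp at ht
  exact (PlaceB.ord_nonneg_iff v ht0).mp (by omega)

/-- `O_v = k + t O_v` for a place with trivial residue field and a uniformiser `t`. -/
theorem hdec_place (v : Place k F) (hres : ResidueTrivial v) {t : F} (ht : v.ord t = 1) :
    ∀ f : v.toValuationSubring, ∃ (c : k) (g : v.toValuationSubring),
      f = algebraMap k v.toValuationSubring c
        + (⟨t, mem_of_ord_eq_one v ht⟩ : v.toValuationSubring) * g := by
  intro f
  have ht0 : t ≠ 0 := by rintro rfl; simp at ht
  obtain ⟨c, hc⟩ := hres f f.2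
  rcases hc with hc | hc
  · exact ⟨c, 0, Subtype.ext (by simpa using hc)⟩
  · have hne : (f : F) - algebraMap k F c ≠ 0 := by
      intro h; rw [h] at hc; simp at hc
    have hq0 : ((f : F) - algebraMap k F c) / t ≠ 0 := div_ne_zero hne ht0
    have hord : 0 ≤ v.ord (((f : F) - algebraMap k F c) / t) := by
      rw [div_eq_mul_inv, v.ord_mul hne (inv_ne_zero ht0), v.ord_inv, ht]
      omega
    refine ⟨c, ⟨_, (PlaceB.ord_nonneg_iff v hq0).mp hord⟩, Subtype.ext ?_⟩
    show (f : F) = algebraMap k F c + t * (((f : F) - algebraMap k F c) / t)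
    field_simp
    ring

end Basic

section DD

variable {K : Type*} [Field K] {ι : Type*} [DecidableEq ι]

/-- the divided difference over `univ` of the subtype `↥S` is the divided difference over `S` -/
theorem dd_subtype (T v : ι → K) (S : Finset ι) :
    DiagCore.dd (fun a : ↥S => T a) (fun a : ↥S => v a) Finset.univ = dd T v S := by
  classical
  unfold DiagCore.dd dd
  rw [← Finset.sum_coe_sort S (fun a => v a / ∏ c ∈ S.erase a, (T a - T c))]
  refine Finset.sum_congr rfl fun a _ => ?_
  congr 1
  have h : (Finset.univ.erase a).map (Function.Embedding.subtype _) = S.erase (a : ι) := by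
    ext c
    simp only [Finset.mem_map, Finset.mem_erase, Finset.mem_univ, and_true,
      Function.Embedding.coe_subtype]
    constructor
    · rintro ⟨c', hc', rfl⟩
      exact ⟨fun e => hc' (Subtype.ext e), c'.2⟩
    · rintro ⟨hne, hcS⟩
      exact ⟨⟨c, hcS⟩, fun e => hne (congrArg Subtype.val e), rfl⟩
  rw [← h, Finset.prod_map]
  rfl

end DD

section Main

variable {k F : Type*} [Field k] [Field F] [Algebra k F] [IsAlgClosed k] [CharZero k]
variable {KK : Type*} [Field KK] [Algebra k KK]

/-- the `k`-algebra structure on a valuation subring containing the constants -/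
@[reducible] def algebraOfMem (O : ValuationSubring KK) (hO : ∀ c : k, algebraMap k KK c ∈ O) :
    Algebra k O :=
  ((algebraMap k KK).codRestrict O.toSubring hO).toAlgebra

/-- **DIAG on the Place API.** -/
theorem diag (x : F) [IsGen k x] {ι : Type*} [DecidableEq ι] (v : Place k F) {t : F}
    (ht : v.ord t = 1) (O : ValuationSubring KK) (hO : ∀ c : k, algebraMap k KK c ∈ O)
    (φ : ι → F →ₐ[k] KK) (S : Finset ι) (hS : S.Nonempty)
    (hc : ∀ a ∈ S, ∀ g : F, φ a g ∈ O ↔ g ∈ v.toValuationSubring)
    (hinj : Set.InjOn (fun a => φ a t) S)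
    {s : F} (c : ℕ → k) {r : F} (hr : r ∈ v.toValuationSubring)
    (hexp : s = ∑ j ∈ range S.card, algebraMap k F (c j) * t ^ j + t ^ S.card * r) :
    dd (fun a => φ a t) (fun a => φ a s) S ∈ O ∧
      dd (fun a => φ a t) (fun a => φ a s) S - algebraMap k KK (c (S.card - 1)) ∈ O.nonunits := by
  classical
  letI : Algebra k O := algebraOfMem O hO
  haveI : Algebra.EssFiniteType k v.toValuationSubring := essFiniteType_place x v
  have hres : ResidueTrivial v := residueTrivial_of_isGen x v
  have htm : t ∈ v.toValuationSubring := mem_of_ord_eq_one v ht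
  have ht0 : t ≠ 0 := by rintro rfl; simp at ht
  set tO : v.toValuationSubring := ⟨t, htm⟩ with htO
  have hdec := hdec_place v hres ht
  -- the restricted points
  let φ' : ↥S → v.toValuationSubring →ₐ[k] O := fun a =>
    { toFun := fun g => ⟨φ a g, (hc a a.2 g).mpr g.2⟩
      map_one' := Subtype.ext (map_one _)
      map_mul' := fun g h => Subtype.ext (map_mul (φ a) (g : F) (h : F))
      map_zero' := Subtype.ext (map_zero _)
      map_add' := fun g h => Subtype.ext (map_add (φ a) (g : F) (h : F))
      commutes' := fun c' => Subtype.ext ((φ a).commutes c') }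
  have hφ' : ∀ (a : ↥S) (g : v.toValuationSubring), ((φ' a g : O) : KK) = φ a g := fun _ _ => rfl
  -- the parameters are nonunits
  have hτ : ∀ a ∈ (Finset.univ : Finset ↥S), φ' a tO ∈ IsLocalRing.maximalIdeal O := by
    intro a _
    rw [IsLocalRing.mem_maximalIdeal, mem_nonunits_iff]
    intro hu
    obtain ⟨u, hu⟩ := hu
    have h1 : ((u⁻¹ : Oˣ) : O) * φ' a tO = 1 := by rw [← hu]; exact Units.inv_mul u
    have h2 : (((u⁻¹ : Oˣ) : O) : KK) * φ a t = 1 := congrArg Subtype.val h1
    have h3 : φ a t⁻¹ = (((u⁻¹ : Oˣ) : O) : KK) := by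
      rw [map_inv₀]
      have hne : φ a t ≠ 0 := by
        intro h0; rw [h0, mul_zero] at h2; exact zero_ne_one h2
      field_simp
      rw [mul_comm]; exact h2.symm
    have h4 : t⁻¹ ∈ v.toValuationSubring := (hc a a.2 _).mp (by rw [h3]; exact Subtype.property _)
    have h5 := (PlaceB.ord_nonneg_iff v (inv_ne_zero ht0)).mpr h4
    rw [v.ord_inv, ht] at h5
    omega
  have hinj' : Set.InjOn (fun a : ↥S => algebraMap O KK (φ' a tO))
      (Finset.univ : Finset ↥S) := by
    intro a _ b _ hab
    exact Subtype.ext (hinj a.2 b.2 hab)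
  -- the Taylor polynomial
  set P : Polynomial k := ∑ j ∈ range S.card, Polynomial.C (c j) * Polynomial.X ^ j with hP
  have hs : s ∈ v.toValuationSubring := by
    rw [hexp]
    refine Subring.add_mem _ (Subring.sum_mem _ fun j _ => ?_) ?_
    · exact Subring.mul_mem _ (v.algebraMap_mem' _) (Subring.pow_mem _ htm _)
    · exact Subring.mul_mem _ (Subring.pow_mem _ htm _) hr
  have hcard : (Finset.univ : Finset ↥S).card = S.card := by
    rw [Finset.card_univ, Fintype.card_coe]
  have haev : ((Polynomial.aeval tO P : v.toValuationSubring) : F) = Polynomial.aeval t P :=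
    (Polynomial.aeval_algHom_apply (IsScalarTower.toAlgHom k v.toValuationSubring F) tO P).symm
  have hPt : Polynomial.aeval t P = ∑ j ∈ range S.card, algebraMap k F (c j) * t ^ j := by
    rw [hP, map_sum]
    simp only [map_mul, Polynomial.aeval_C, map_pow, Polynomial.aeval_X]
  have hf : (⟨s, hs⟩ : v.toValuationSubring)
      = Polynomial.aeval tO P + tO ^ (Finset.univ : Finset ↥S).card * ⟨r, hr⟩ := by
    apply Subtype.ext
    rw [hcard]
    show s = ((Polynomial.aeval tO P : v.toValuationSubring) : F) + t ^ S.card * r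
    rw [haev, hPt]
    exact hexp
  have huniv : (Finset.univ : Finset ↥S).Nonempty := by
    obtain ⟨a, ha⟩ := hS
    exact ⟨⟨a, ha⟩, Finset.mem_univ _⟩
  obtain ⟨d, hd, hres'⟩ := DiagCore.dd_mem_and_residue (KK := KK) tO hdec φ' Finset.univ huniv hτ
    hinj' ⟨s, hs⟩ P ⟨r, hr⟩ hf
  have hdd : (d : KK) = dd (fun a => φ a t) (fun a => φ a s) S := by
    have := dd_subtype (fun a => φ a t) (fun a => φ a s) S
    rw [← this]
    exact hd
  have hcoeff : P.coeff (S.card - 1) = c (S.card - 1) := by
    have hpos : S.card - 1 < S.card := Nat.sub_lt (Finset.card_pos.mpr hS) one_pos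
    rw [hP, Polynomial.finsetSum_coeff]
    simp only [Polynomial.coeff_C_mul_X_pow]
    rw [Finset.sum_eq_single (S.card - 1)]
    · simp
    · intro j _ hj
      rw [if_neg (fun h => hj h.symm)]
    · intro h
      exact absurd (Finset.mem_range.mpr hpos) h
  refine ⟨by rw [← hdd]; exact d.2, ?_⟩
  rw [hcard, hcoeff] at hres'
  have h6 : ((d - algebraMap k O (c (S.card - 1)) : O) : KK)
      = dd (fun a => φ a t) (fun a => φ a s) S - algebraMap k KK (c (S.card - 1)) := by
    rw [← hdd]; rfl
  rw [← h6]
  exact (ValuationSubring.coe_mem_nonunits_iff).2 hres'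

end Main

end Fermat.Agent.GR.H.LT.DiagPlace
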