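/-
GATE-R / GR-H-LT-NEWTON (helper21).  Mathlib-only.

Pure field / matrix algebra of Newton divided differences:

* `ddS t v S` : the symmetric (Lagrange) divided difference of the values `v` at the nodes
  `t i`, `i ∈ S`;
* the two-point recursion `ddS_insert_insert`;
* Newton's formula with remainder over any finite set of a linear order (`newton_remainder`)
  and the expansion `newton_expansion`;
* the BLOCK factorisation `R = U * DD` (`block_expansion`), `U` lower triangular whatever the
  interleaving of the blocks, `det U = ∏` over same-block pairs, and the minor form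
  `det_block` for every column map.
-/
import Mathlib

namespace Fermat.Agent.GR.H.LT.Newton

section DD

variable {K : Type*} [Field K] {ι : Type*} [DecidableEq ι]

/-- Symmetric (Lagrange) divided difference of the values `v` at the nodes `t i`, `i ∈ S`. -/
noncomputable def ddS (t v : ι → K) (S : Finset ι) : K :=
  ∑ i ∈ S, v i / ∏ c ∈ S.erase i, (t i - t c)

theorem ddS_def (t v : ι → K) (S : Finset ι) :
    ddS t v S = ∑ i ∈ S, v i / ∏ c ∈ S.erase i, (t i - t c) := rfl

@[simp] theorem ddS_empty (t v : ι → K) : ddS t v ∅ = 0 := by simp [ddS]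

@[simp] theorem ddS_singleton (t v : ι → K) (a : ι) : ddS t v {a} = v a := by simp [ddS]

/-- `ddS` is additive in the values. -/
theorem ddS_add (t v w : ι → K) (S : Finset ι) :
    ddS t (fun i => v i + w i) S = ddS t v S + ddS t w S := by
  unfold ddS
  rw [← Finset.sum_add_distrib]
  exact Finset.sum_congr rfl fun i _ => add_div _ _ _

/-- `ddS` is homogeneous in the values. -/
theorem ddS_smul (t v : ι → K) (r : K) (S : Finset ι) :
    ddS t (fun i => r * v i) S = r * ddS t v S := by
  unfold ddS
  rw [Finset.mul_sum]
  exact Finset.sum_congr rfl fun i _ => mul_div_assoc _ _ _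

/-- Only the values and the nodes on `S` matter. -/
theorem ddS_congr {t t' v v' : ι → K} {S : Finset ι} (ht : ∀ i ∈ S, t i = t' i)
    (hv : ∀ i ∈ S, v i = v' i) : ddS t v S = ddS t' v' S := by
  unfold ddS
  refine Finset.sum_congr rfl fun i hi => ?_
  rw [hv i hi, ht i hi]
  congr 1
  exact Finset.prod_congr rfl fun c hc => by rw [ht c (Finset.mem_of_mem_erase hc)]

private theorem aux_div_mul (a b P : K) : a / (b * P) = a / P / b := by
  rw [div_div, mul_comm]

private theorem aux_cancel (a d P : K) (hd : d ≠ 0) : d * (a / (d * P)) = a / P := by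
  rw [aux_div_mul, mul_div_cancel₀ _ hd]

private theorem aux_cancel_neg (a x y P : K) (hd : x - y ≠ 0) :
    (x - y) * (a / P / (y - x)) = - (a / P) := by
  have h3 : y - x ≠ 0 := by
    intro h
    apply hd
    linear_combination -h
  rw [mul_div_assoc', div_eq_iff h3]
  ring

private theorem aux_two (w x y z : K) (h1 : z - x ≠ 0) (h2 : z - y ≠ 0) :
    (x - y) * (w / (z - y) / (z - x)) = w / (z - x) - w / (z - y) := by
  field_simp
  ring

theorem ddS_insert (t v : ι → K) {S : Finset ι} {x : ι} (hx : x ∉ S) :
    ddS t v (insert x S) = v x / ∏ c ∈ S, (t x - t c)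
      + ∑ i ∈ S, v i / (∏ c ∈ S.erase i, (t i - t c)) / (t i - t x) := by
  unfold ddS
  rw [Finset.sum_insert hx, Finset.erase_insert hx]
  congr 1
  refine Finset.sum_congr rfl fun i hi => ?_
  have hxi : x ≠ i := fun h => hx (h ▸ hi)
  have hx' : x ∉ S.erase i := fun h => hx (Finset.mem_of_mem_erase h)
  rw [Finset.erase_insert_of_ne hxi, Finset.prod_insert hx', aux_div_mul]

/-- Two-point recursion of divided differences. -/
theorem ddS_insert_insert (t v : ι → K) {S : Finset ι} {x y : ι} (hx : x ∉ S) (hy : y ∉ S)
    (hxy : t x ≠ t y) (hSx : ∀ i ∈ S, t i ≠ t x) (hSy : ∀ i ∈ S, t i ≠ t y) :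
    (t x - t y) * ddS t v (insert x (insert y S))
      = ddS t v (insert x S) - ddS t v (insert y S) := by
  have hxy' : x ≠ y := fun h => hxy (h ▸ rfl)
  have hx' : x ∉ insert y S := by simp [hxy', hx]
  have h0 : t x - t y ≠ 0 := sub_ne_zero.mpr hxy
  rw [ddS_insert t v hx', ddS_insert t v hx, ddS_insert t v hy]
  rw [Finset.prod_insert hy, Finset.sum_insert hy, Finset.erase_insert hy]
  have hsum : ∑ i ∈ S, v i / (∏ c ∈ (insert y S).erase i, (t i - t c)) / (t i - t x)
      = ∑ i ∈ S, v i / (∏ c ∈ S.erase i, (t i - t c)) / (t i - t y) / (t i - t x) := by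
    refine Finset.sum_congr rfl fun i hi => ?_
    have hyi : y ≠ i := fun h => hy (h ▸ hi)
    have hy' : y ∉ S.erase i := fun h => hy (Finset.mem_of_mem_erase h)
    rw [Finset.erase_insert_of_ne hyi, Finset.prod_insert hy', aux_div_mul]
  have hterm : (t x - t y) *
      ∑ i ∈ S, v i / (∏ c ∈ S.erase i, (t i - t c)) / (t i - t y) / (t i - t x)
      = ∑ i ∈ S, v i / (∏ c ∈ S.erase i, (t i - t c)) / (t i - t x)
        - ∑ i ∈ S, v i / (∏ c ∈ S.erase i, (t i - t c)) / (t i - t y) := by
    rw [Finset.mul_sum, ← Finset.sum_sub_distrib]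
    refine Finset.sum_congr rfl fun i hi => ?_
    exact aux_two _ _ _ _ (sub_ne_zero.mpr (hSx i hi)) (sub_ne_zero.mpr (hSy i hi))
  rw [hsum, mul_add, mul_add, hterm, aux_cancel _ _ _ h0, aux_cancel_neg _ _ _ _ h0]
  ring

end DD

section Newton

variable {K : Type*} [Field K] {ι : Type*} [DecidableEq ι] [LinearOrder ι]

/-- the part of `S` strictly below `j` -/
def segLT (S : Finset ι) (j : ι) : Finset ι := S.filter fun c => c < j

/-- the part of `S` below or equal to `j` -/
def segLE (S : Finset ι) (j : ι) : Finset ι := S.filter fun c => c ≤ j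

omit [DecidableEq ι] in
theorem mem_segLT {S : Finset ι} {j c : ι} : c ∈ segLT S j ↔ c ∈ S ∧ c < j := by
  simp [segLT]

omit [DecidableEq ι] in
theorem mem_segLE {S : Finset ι} {j c : ι} : c ∈ segLE S j ↔ c ∈ S ∧ c ≤ j := by
  simp [segLE]

theorem segLE_eq_insert {S : Finset ι} {j : ι} (hj : j ∈ S) :
    segLE S j = insert j (segLT S j) := by
  ext c
  simp only [mem_segLE, mem_segLT, Finset.mem_insert, le_iff_eq_or_lt]
  constructor
  · rintro ⟨hc, rfl | h⟩
    · exact Or.inl rfl
    · exact Or.inr ⟨hc, h⟩
  · rintro (rfl | ⟨hc, h⟩)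
    · exact ⟨hj, Or.inl rfl⟩
    · exact ⟨hc, Or.inr h⟩

omit [DecidableEq ι] in
theorem not_mem_segLT_self (S : Finset ι) (j : ι) : j ∉ segLT S j := by
  simp [mem_segLT]

/-- **Newton's formula with remainder** over any finite set `S` of a linear order: for a node
`a ∉ S`, the value `v a` is the Newton polynomial of `S` evaluated at `t a` plus the remainder
`∏_{c ∈ S} (t a - t c) * v[S, a]`. -/
theorem newton_remainder (t v : ι → K) (S : Finset ι) :
    ∀ a, a ∉ S → Set.InjOn t ↑(insert a S) →
      v a = ∑ j ∈ S, (∏ c ∈ segLT S j, (t a - t c)) * ddS t v (segLE S j)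
        + (∏ c ∈ S, (t a - t c)) * ddS t v (insert a S) := by
  induction S using Finset.induction_on_max with
  | empty => intro a _ _; simp
  | insert m S hm ih =>
    intro a ha hinj
    have ham : a ≠ m := fun h => ha (h ▸ Finset.mem_insert_self _ _)
    have haS : a ∉ S := fun h => ha (Finset.mem_insert_of_mem h)
    have hmS : m ∉ S := fun h => lt_irrefl _ (hm m h)
    have hinj' : Set.InjOn t ↑(insert a S) := by
      refine hinj.mono ?_
      intro z hz
      simp only [Finset.coe_insert, Set.mem_insert_iff, Finset.mem_coe] at hz ⊢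
      rcases hz with h | h
      · exact Or.inl h
      · exact Or.inr (Or.inr h)
    have h1 := ih a haS hinj'
    have hlt : ∀ j ∈ S, segLT (insert m S) j = segLT S j := by
      intro j hj
      unfold segLT
      rw [Finset.filter_insert, if_neg (not_lt.mpr (hm j hj).le)]
    have hle : ∀ j ∈ S, segLE (insert m S) j = segLE S j := by
      intro j hj
      unfold segLE
      rw [Finset.filter_insert, if_neg (not_le.mpr (hm j hj))]
    have hltm : segLT (insert m S) m = S := by
      unfold segLT
      rw [Finset.filter_insert, if_neg (lt_irrefl m), Finset.filter_true_of_mem hm]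
    have hlem : segLE (insert m S) m = insert m S := by
      unfold segLE
      refine Finset.filter_true_of_mem ?_
      intro z hz
      rcases Finset.mem_insert.mp hz with rfl | h
      · exact le_rfl
      · exact (hm z h).le
    have hne : ∀ z ∈ insert a (insert m S), ∀ w ∈ insert a (insert m S), z ≠ w → t z ≠ t w :=
      fun z hz w hw hzw h => hzw (hinj (Finset.mem_coe.mpr hz) (Finset.mem_coe.mpr hw) h)
    have hR := ddS_insert_insert t v haS hmS
      (hne a (Finset.mem_insert_self _ _) m
        (Finset.mem_insert_of_mem (Finset.mem_insert_self _ _)) ham)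
      (fun i hi => hne i (Finset.mem_insert_of_mem (Finset.mem_insert_of_mem hi)) a
        (Finset.mem_insert_self _ _) (fun h => haS (h ▸ hi)))
      (fun i hi => hne i (Finset.mem_insert_of_mem (Finset.mem_insert_of_mem hi)) m
        (Finset.mem_insert_of_mem (Finset.mem_insert_self _ _)) (fun h => hmS (h ▸ hi)))
    rw [Finset.sum_insert hmS, hltm, hlem,
      Finset.sum_congr rfl (fun j hj => by rw [hlt j hj, hle j hj]), Finset.prod_insert hmS]
    linear_combination h1 - (∏ c ∈ S, (t a - t c)) * hR

/-- **Newton expansion**: for `a ∈ S` the value `v a` is the Newton polynomial of `S`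
evaluated at `t a`.  The terms with `a < j` vanish by themselves (the coefficient matrix
`(a, j) ↦ ∏_{c ∈ S, c < j} (t a - t c)` is lower triangular for free). -/
theorem newton_expansion (t v : ι → K) {S : Finset ι} (hinj : Set.InjOn t ↑S) {a : ι}
    (ha : a ∈ S) :
    v a = ∑ j ∈ S, (∏ c ∈ segLT S j, (t a - t c)) * ddS t v (segLE S j) := by
  have haT : a ∉ segLT S a := not_mem_segLT_self S a
  have hins : insert a (segLT S a) = segLE S a := (segLE_eq_insert ha).symm
  have hsub : segLE S a ⊆ S := Finset.filter_subset _ _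
  have h1 := newton_remainder t v (segLT S a) a haT
    (by rw [hins]; exact hinj.mono (Finset.coe_subset.mpr hsub))
  -- the sum over `S` reduces to the sum over `segLE S a`
  have hzero : ∀ j ∈ S, j ∉ segLE S a →
      (∏ c ∈ segLT S j, (t a - t c)) * ddS t v (segLE S j) = 0 := by
    intro j hj hnj
    have haj : a < j := by
      by_contra h
      exact hnj (mem_segLE.mpr ⟨hj, not_lt.mp h⟩)
    rw [Finset.prod_eq_zero (mem_segLT.mpr ⟨ha, haj⟩) (sub_self _), zero_mul]
  rw [← Finset.sum_subset hsub hzero, ← hins, Finset.sum_insert haT]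
  have hlt : ∀ j ∈ segLT S a, segLT (segLT S a) j = segLT S j := by
    intro j hj
    have hja : j < a := (mem_segLT.mp hj).2
    ext c
    simp only [mem_segLT]
    constructor
    · rintro ⟨⟨hc, _⟩, h⟩
      exact ⟨hc, h⟩
    · rintro ⟨hc, h⟩
      exact ⟨⟨hc, h.trans hja⟩, h⟩
  have hle : ∀ j ∈ segLT S a, segLE (segLT S a) j = segLE S j := by
    intro j hj
    have hja : j < a := (mem_segLT.mp hj).2
    ext c
    simp only [mem_segLT, mem_segLE]
    constructor
    · rintro ⟨⟨hc, _⟩, h⟩
      exact ⟨hc, h⟩
    · rintro ⟨hc, h⟩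
      exact ⟨⟨hc, lt_of_le_of_lt h hja⟩, h⟩
  rw [h1, Finset.sum_congr rfl (fun j hj => by rw [hlt j hj, hle j hj]), hins]
  ring

end Newton

section Block

variable {K : Type*} [Field K] {ι : Type*} [DecidableEq ι] [LinearOrder ι] [Fintype ι]
variable {Q : Type*} [DecidableEq Q]

/-- the rows with the same centre as `p`, strictly before `p` -/
def blockLT (cen : ι → Q) (p : ι) : Finset ι := Finset.univ.filter fun c => cen c = cen p ∧ c < p

/-- the rows with the same centre as `p`, up to `p` -/
def blockLE (cen : ι → Q) (p : ι) : Finset ι := Finset.univ.filter fun c => cen c = cen p ∧ c ≤ p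

/-- the block of all rows with centre `q` -/
def block (cen : ι → Q) (q : Q) : Finset ι := Finset.univ.filter fun c => cen c = q

omit [DecidableEq ι] in
theorem mem_blockLT {cen : ι → Q} {p c : ι} : c ∈ blockLT cen p ↔ cen c = cen p ∧ c < p := by
  simp [blockLT]

omit [DecidableEq ι] in
theorem mem_blockLE {cen : ι → Q} {p c : ι} : c ∈ blockLE cen p ↔ cen c = cen p ∧ c ≤ p := by
  simp [blockLE]

omit [DecidableEq ι] [LinearOrder ι] in
theorem mem_block {cen : ι → Q} {q : Q} {c : ι} : c ∈ block cen q ↔ cen c = q := by
  simp [block]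

omit [DecidableEq ι] in
theorem segLT_block (cen : ι → Q) (p : ι) : segLT (block cen (cen p)) p = blockLT cen p := by
  ext c
  simp [mem_segLT, mem_block, mem_blockLT]

omit [DecidableEq ι] in
theorem segLE_block (cen : ι → Q) (p : ι) : segLE (block cen (cen p)) p = blockLE cen p := by
  ext c
  simp [mem_segLE, mem_block, mem_blockLE]

/-- the block divided difference of the column `j` of `R` at the row `p`: nodes = the rows of
the block of `p` up to `p`. -/
noncomputable def DD (cen : ι → Q) (t : ι → K) {J : Type*} (R : ι → J → K) (p : ι) (j : J) : K :=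
  ddS t (fun i => R i j) (blockLE cen p)

/-- the block Newton matrix: `U p p' = ∏_{c < p', cen c = cen p'} (t p - t c)` if `p, p'` have
the same centre, `0` otherwise. -/
noncomputable def U (cen : ι → Q) (t : ι → K) : Matrix ι ι K :=
  Matrix.of fun p p' => if cen p = cen p' then ∏ c ∈ blockLT cen p', (t p - t c) else 0

omit [DecidableEq ι] in
theorem U_apply (cen : ι → Q) (t : ι → K) (p p' : ι) :
    U cen t p p' = if cen p = cen p' then ∏ c ∈ blockLT cen p', (t p - t c) else 0 := rfl

omit [DecidableEq ι] in
/-- `U` is lower triangular in the order of `ι`, whatever the interleaving of the blocks. -/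
theorem U_lowerTriangular (cen : ι → Q) (t : ι → K) :
    (U cen t).IsLowerTriangular := by
  intro p p' h
  have hlt : p < p' := h
  rw [U_apply]
  split_ifs with hc
  · exact Finset.prod_eq_zero (mem_blockLT.mpr ⟨hc, hlt⟩) (sub_self _)
  · rfl

theorem det_U (cen : ι → Q) (t : ι → K) :
    (U cen t).det = ∏ p, ∏ c ∈ blockLT cen p, (t p - t c) := by
  rw [Matrix.det_of_isLowerTriangular _ (U_lowerTriangular cen t)]
  exact Finset.prod_congr rfl fun p _ => by rw [U_apply, if_pos rfl]

/-- **Block Newton expansion** `R = U * DD`: nodes need to be distinct only inside a block. -/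
theorem block_expansion (cen : ι → Q) (t : ι → K)
    (hinj : ∀ p p', cen p = cen p' → t p = t p' → p = p') {J : Type*} (R : ι → J → K)
    (p : ι) (j : J) :
    R p j = ∑ p', U cen t p p' * DD cen t R p' j := by
  have hInj : Set.InjOn t ↑(block cen (cen p)) := by
    intro x hx y hy hxy
    have hx' : cen x = cen p := mem_block.mp (Finset.mem_coe.mp hx)
    have hy' : cen y = cen p := mem_block.mp (Finset.mem_coe.mp hy)
    exact hinj x y (hx'.trans hy'.symm) hxy
  have hp : p ∈ block cen (cen p) := mem_block.mpr rfl
  have h1 := newton_expansion t (fun i => R i j) hInj hp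
  rw [h1]
  unfold block
  rw [Finset.sum_filter]
  refine Finset.sum_congr rfl fun p' _ => ?_
  rw [U_apply]
  by_cases hc : cen p' = cen p
  · rw [if_pos hc, if_pos hc.symm]
    have e1 : segLT (Finset.univ.filter fun c => cen c = cen p) p' = blockLT cen p' := by
      rw [← hc]; exact segLT_block cen p'
    have e2 : segLE (Finset.univ.filter fun c => cen c = cen p) p' = blockLE cen p' := by
      rw [← hc]; exact segLE_block cen p'
    rw [e1, e2]
    rfl
  · rw [if_neg hc, if_neg (fun h => hc h.symm), zero_mul]

/-- matrix form of `block_expansion` for a column selection `c`. -/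
theorem block_expansion_matrix (cen : ι → Q) (t : ι → K)
    (hinj : ∀ p p', cen p = cen p' → t p = t p' → p = p') {J : Type*} (R : ι → J → K)
    (c : ι → J) :
    (Matrix.of fun p q => R p (c q)) = U cen t * Matrix.of fun p q => DD cen t R p (c q) := by
  ext p q
  rw [Matrix.mul_apply]
  exact block_expansion cen t hinj R p (c q)

/-- **Block Vandermonde factorisation of minors** (all column maps `c`, helper3's `minorsAll`
convention): every maximal minor of `R` is the fixed product of the same-block node
differences times the corresponding minor of the matrix of block divided differences. -/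
theorem det_block (cen : ι → Q) (t : ι → K)
    (hinj : ∀ p p', cen p = cen p' → t p = t p' → p = p') {J : Type*} (R : ι → J → K)
    (c : ι → J) :
    Matrix.det (fun p q => R p (c q))
      = (∏ p, ∏ c' ∈ blockLT cen p, (t p - t c')) * Matrix.det (fun p q => DD cen t R p (c q)) := by
  have h := congrArg Matrix.det (block_expansion_matrix cen t hinj R c)
  rw [Matrix.det_mul, det_U] at h
  exact h

/-- the same-block ordered pairs `(c, p)`, `c < p`, `cen c = cen p` -/
def blockPairs (cen : ι → Q) : Finset (ι × ι) :=
  Finset.univ.filter fun x => cen x.1 = cen x.2 ∧ x.1 < x.2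

omit [DecidableEq ι] in
theorem mem_blockPairs {cen : ι → Q} {x : ι × ι} :
    x ∈ blockPairs cen ↔ cen x.1 = cen x.2 ∧ x.1 < x.2 := by
  simp [blockPairs]

omit [DecidableEq ι] in
/-- the product over the rows of the products over the earlier rows of the block is the
product over the same-block ordered pairs. -/
theorem prod_blockLT_eq_prod_blockPairs {M : Type*} [CommMonoid M] (cen : ι → Q)
    (f : ι → ι → M) :
    ∏ p, ∏ c ∈ blockLT cen p, f c p = ∏ x ∈ blockPairs cen, f x.1 x.2 := by
  unfold blockLT blockPairs
  rw [Finset.prod_filter, ← Finset.univ_product_univ, Finset.prod_product_right]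
  refine Finset.prod_congr rfl fun p _ => ?_
  rw [Finset.prod_filter]

/-- `det_block` with the Vandermonde factor written over the same-block pairs. -/
theorem det_block_pairs (cen : ι → Q) (t : ι → K)
    (hinj : ∀ p p', cen p = cen p' → t p = t p' → p = p') {J : Type*} (R : ι → J → K)
    (c : ι → J) :
    Matrix.det (fun p q => R p (c q))
      = (∏ x ∈ blockPairs cen, (t x.2 - t x.1)) * Matrix.det (fun p q => DD cen t R p (c q)) := by
  rw [det_block cen t hinj R c, prod_blockLT_eq_prod_blockPairs cen fun c p => t p - t c]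

omit [DecidableEq ι] in
/-- If all the nodes of all blocks are pairwise distinct, the Vandermonde factor is nonzero. -/
theorem prod_blockLT_ne_zero (cen : ι → Q) (t : ι → K)
    (hinj : ∀ p p', cen p = cen p' → t p = t p' → p = p') :
    (∏ p, ∏ c ∈ blockLT cen p, (t p - t c)) ≠ 0 := by
  refine Finset.prod_ne_zero_iff.mpr fun p _ => Finset.prod_ne_zero_iff.mpr fun c hc => ?_
  obtain ⟨h1, h2⟩ := mem_blockLT.mp hc
  intro h
  exact (ne_of_lt h2) (hinj c p h1 (sub_eq_zero.mp h).symm)

end Block

section OneBlock

variable {K : Type*} [Field K] {ι : Type*} [DecidableEq ι] [LinearOrder ι] [Fintype ι]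

/-- the divided difference `v[t_0, …, t_a]` on the initial segment `{c | c ≤ a}`. -/
noncomputable def dd (t v : ι → K) (a : ι) : K := ddS t v (Finset.univ.filter fun c => c ≤ a)

theorem dd_eq_ddS_Iic [LocallyFiniteOrderBot ι] (t v : ι → K) (a : ι) :
    dd t v a = ddS t v (Finset.Iic a) := by
  unfold dd
  congr 1
  ext c
  simp

omit [DecidableEq ι] in
theorem blockLE_unit (a : ι) :
    blockLE (fun _ : ι => ()) a = Finset.univ.filter fun c => c ≤ a := by
  ext c
  simp [mem_blockLE]

omit [DecidableEq ι] in
theorem blockLT_unit (a : ι) :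
    blockLT (fun _ : ι => ()) a = Finset.univ.filter fun c => c < a := by
  ext c
  simp [mem_blockLT]

theorem DD_unit (t : ι → K) {J : Type*} (V : ι → J → K) (a : ι) (j : J) :
    DD (fun _ : ι => ()) t V a j = dd t (fun i => V i j) a := by
  unfold DD dd
  rw [blockLE_unit]

/-- **Newton expansion** on the initial segments:
`v a = ∑_{a' ≤ a} ∏_{c < a'} (t a - t c) * v[t_0..t_a']`. -/
theorem dd_expansion (t v : ι → K) (hinj : Function.Injective t) (a : ι) :
    v a = ∑ a' ∈ Finset.univ.filter (fun c => c ≤ a),
      (∏ c ∈ Finset.univ.filter (fun c => c < a'), (t a - t c)) * dd t v a' := by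
  have h := block_expansion (fun _ : ι => ()) t (fun p p' _ h => hinj h)
    (fun i (_ : Unit) => v i) a ()
  rw [h, Finset.sum_filter]
  refine Finset.sum_congr rfl fun a' _ => ?_
  rw [U_apply, if_pos rfl, DD_unit, blockLT_unit]
  by_cases ha : a' ≤ a
  · rw [if_pos ha]
  · rw [if_neg ha]
    have h0 : (∏ c ∈ Finset.univ.filter (fun c => c < a'), (t a - t c)) = 0 :=
      Finset.prod_eq_zero (i := a)
        (Finset.mem_filter.mpr ⟨Finset.mem_univ _, not_le.mp ha⟩) (sub_self _)
    rw [h0, zero_mul]

/-- **Vandermonde factorisation** of a square block: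
`det (V a (c q)) = ∏_{c' < a} (t a - t c') * det (V[t_0..t_a] (c q))`. -/
theorem det_dd (t : ι → K) (hinj : Function.Injective t) {J : Type*} (V : ι → J → K)
    (c : ι → J) :
    Matrix.det (fun a q => V a (c q))
      = (∏ a, ∏ c' ∈ Finset.univ.filter (fun c' => c' < a), (t a - t c'))
        * Matrix.det (fun a q => dd t (fun i => V i (c q)) a) := by
  have h := det_block (fun _ : ι => ()) t (fun p p' _ h => hinj h) V c
  rw [h]
  congr 1
  · exact Finset.prod_congr rfl fun a _ => by rw [blockLT_unit]
  · congr 1
    funext a q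
    exact DD_unit t V a (c q)

end OneBlock

section FinForm

variable {K : Type*} [Field K] {b : ℕ}

/-- `Fin b` form of the Newton expansion (helper3's shape). -/
theorem dd_expansion_fin (t v : Fin b → K) (hinj : Function.Injective t) (a : Fin b) :
    v a = ∑ a' ∈ Finset.Iic a, (∏ c ∈ Finset.Iio a', (t a - t c)) * dd t v a' := by
  have h := dd_expansion t v hinj a
  have e1 : (Finset.univ.filter fun c : Fin b => c ≤ a) = Finset.Iic a := by ext c; simp
  have e2 : ∀ a' : Fin b, (Finset.univ.filter fun c : Fin b => c < a') = Finset.Iio a' := by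
    intro a'; ext c; simp
  rw [e1] at h
  rw [h]
  exact Finset.sum_congr rfl fun a' _ => by rw [e2]

/-- `Fin b` form of the Vandermonde factorisation of a square block. -/
theorem det_dd_fin (t : Fin b → K) (hinj : Function.Injective t) {J : Type*} (V : Fin b → J → K)
    (c : Fin b → J) :
    Matrix.det (fun a q => V a (c q))
      = (∏ a, ∏ c' ∈ Finset.Iio a, (t a - t c'))
        * Matrix.det (fun a q => dd t (fun i => V i (c q)) a) := by
  have e2 : ∀ a' : Fin b, (Finset.univ.filter fun c : Fin b => c < a') = Finset.Iio a' := by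
    intro a'; ext c; simp
  rw [det_dd t hinj V c]
  congr 1
  exact Finset.prod_congr rfl fun a _ => by rw [e2]

end FinForm

end Fermat.Agent.GR.H.LT.Newton
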