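/-
GATE-R / GR-H-LT-NEWTON bridge (helper21).

* `ddS_eq_dd` : the divided difference `ddS` of `GR/H/LT/Newton.lean` is SYNTACTICALLY helper6's
  `Fermat.Agent.GR.H.Newton.dd` (so integrality statements `exists_eq_dd`, `exists_eq_dd_taylor`
  about `dd` are statements about the entries of the block matrix `DD`);
* `hfac_block` : the factorisation hypothesis `hfac` of helper90's `LTAsm.lt_le / lt_eq /
  isMaxVal_minors`, discharged by `det_block`;
* `lt_le_block`, `lt_eq_block` : (LT) at one valuation subring for the block Newton matrix.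
-/
import Fermat.Agent.GR.H.Newton
import Fermat.Agent.GR.H.LT.Newton
import Fermat.Agent.GR.H.Star.LTAsm

namespace Fermat.Agent.GR.H.LT.NewtonBridge

open Fermat.Agent.GR.H.LT.Newton

section Bridge

variable {K : Type*} [Field K] {ι : Type*} [DecidableEq ι]

/-- `ddS` is helper6's `dd`, by `rfl`. -/
theorem ddS_eq_dd (t v : ι → K) (S : Finset ι) :
    ddS t v S = Fermat.Agent.GR.H.Newton.dd t v S := rfl

variable [LinearOrder ι] [Fintype ι] {Q : Type*} [DecidableEq Q]

/-- the entries of the block matrix `DD` are helper6's `dd` over `blockLE cen p`. -/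
theorem DD_eq_dd (cen : ι → Q) (t : ι → K) {J : Type*} (R : ι → J → K) (p : ι) (j : J) :
    DD cen t R p j = Fermat.Agent.GR.H.Newton.dd t (fun i => R i j) (blockLE cen p) := rfl

/-- the Vandermonde factor of the block Newton factorisation -/
noncomputable def Delta (cen : ι → Q) (t : ι → K) : K := ∏ p, ∏ c ∈ blockLT cen p, (t p - t c)

omit [DecidableEq ι] in
theorem Delta_def (cen : ι → Q) (t : ι → K) :
    Delta cen t = ∏ p, ∏ c ∈ blockLT cen p, (t p - t c) := rfl

omit [DecidableEq ι] in
theorem Delta_eq_prod_pairs (cen : ι → Q) (t : ι → K) :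
    Delta cen t = ∏ x ∈ blockPairs cen, (t x.2 - t x.1) :=
  prod_blockLT_eq_prod_blockPairs cen fun c p => t p - t c

omit [DecidableEq ι] in
theorem Delta_ne_zero (cen : ι → Q) (t : ι → K)
    (hinj : ∀ p p', cen p = cen p' → t p = t p' → p = p') : Delta cen t ≠ 0 :=
  prod_blockLT_ne_zero cen t hinj

/-- The hypothesis `hfac` of `LTAsm.lt_le`, `LTAsm.lt_eq`, `LTAsm.isMaxVal_minors`. -/
theorem hfac_block (cen : ι → Q) (t : ι → K)
    (hinj : ∀ p p', cen p = cen p' → t p = t p' → p = p') {κ : Type*} (V : ι → κ → K) :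
    ∀ c : ι → κ,
      Matrix.det (Matrix.of fun p q => V p (c q)) =
        Delta cen t * Matrix.det (Matrix.of fun p q => DD cen t V p (c q)) :=
  fun c => det_block cen t hinj V c

open Fermat.Agent.GR.H.Star.LTAsm in
/-- (LT) upper bound for the block Newton matrix. -/
theorem lt_le_block (O : ValuationSubring K) (cen : ι → Q) (t : ι → K)
    (hinj : ∀ p p', cen p = cen p' → t p = t p' → p = p') {κ : Type*} (lam : ι → K)
    (V : ι → κ → K) (hint : ∀ p j, DD cen t V p j ∈ O) (c : ι → κ) :
    O.valuation (Matrix.det (Matrix.of fun p q => lam p * V p (c q))) ≤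
      O.valuation ((∏ p, lam p) * Delta cen t) :=
  lt_le O lam V (DD cen t V) (Delta cen t) (hfac_block cen t hinj V) hint c

open Fermat.Agent.GR.H.Star.LTAsm in
/-- (LT) equality for the block Newton matrix at a column map with invertible residue matrix. -/
theorem lt_eq_block (O : ValuationSubring K) {k : Type*} [Field k] [Algebra k K]
    (hk : ∀ x : k, algebraMap k K x ∈ O) (cen : ι → Q) (t : ι → K)
    (hinj : ∀ p p', cen p = cen p' → t p = t p' → p = p') {κ : Type*} (lam : ι → K)
    (V : ι → κ → K) (hint : ∀ p j, DD cen t V p j ∈ O) (tau : ι → κ → k)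
    (hres : ∀ p j, DD cen t V p j - algebraMap k K (tau p j) ∈ O.nonunits)
    (c0 : ι → κ) (hosc : Matrix.det (Matrix.of fun p q => tau p (c0 q)) ≠ 0) :
    O.valuation (Matrix.det (Matrix.of fun p q => lam p * V p (c0 q))) =
      O.valuation ((∏ p, lam p) * Delta cen t) :=
  lt_eq O hk lam V (DD cen t V) (Delta cen t) (hfac_block cen t hinj V) hint tau hres c0 hosc

open Fermat.Agent.GR.H.Star.LTAsm in
/-- (LT) packaged for the block Newton matrix: the tuple of ALL minors of the scaled evaluation
matrix has attained maximal valuation `v ((∏ lam) * Delta)`. -/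
theorem isMaxVal_minors_block {O : ValuationSubring K} {k : Type*} [Field k] [Algebra k K]
    (hk : ∀ x : k, algebraMap k K x ∈ O) (cen : ι → Q) (t : ι → K)
    (hinj : ∀ p p', cen p = cen p' → t p = t p' → p = p') {κ : Type*} (lam : ι → K)
    (V : ι → κ → K) (hint : ∀ p j, DD cen t V p j ∈ O) (tau : ι → κ → k)
    (hres : ∀ p j, DD cen t V p j - algebraMap k K (tau p j) ∈ O.nonunits)
    (c0 : ι → κ) (hosc : Matrix.det (Matrix.of fun p q => tau p (c0 q)) ≠ 0) :
    IsMaxVal O (fun c : ι → κ => Matrix.det (Matrix.of fun p q => lam p * V p (c q)))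
      (O.valuation ((∏ p, lam p) * Delta cen t)) :=
  isMaxVal_minors hk lam V (DD cen t V) (Delta cen t) (hfac_block cen t hinj V) hint tau hres
    c0 hosc

end Bridge

end Fermat.Agent.GR.H.LT.NewtonBridge
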