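/-
GATE-R / GR-H-LT-NEWTON, rank bookkeeping (helper21).  Mathlib + GR/H/LT/Newton only.

The row `p` of the block Newton matrix `DD cen t R` is the divided difference over
`blockLE cen p`, a set of `pos cen p + 1` nodes, where `pos cen p := #(blockLT cen p)` is the rank
of `p` inside its block.  Hence the residue of `DD cen t R p j` is the Taylor coefficient of
order `pos cen p` (LT-DIAG), and the residue matrix is the jet matrix with the jets
`0, …, #block - 1` at every centre (LT-OSC).  This file records the combinatorics of `pos`.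
-/
import Fermat.Agent.GR.H.LT.Newton

namespace Fermat.Agent.GR.H.LT.NewtonPos

open Fermat.Agent.GR.H.LT.Newton

variable {ι : Type*} [DecidableEq ι] [LinearOrder ι] [Fintype ι] {Q : Type*} [DecidableEq Q]

/-- the rank of the row `p` inside its block: the number of earlier rows with the same centre -/
def pos (cen : ι → Q) (p : ι) : ℕ := (blockLT cen p).card

omit [DecidableEq ι] in
theorem pos_def (cen : ι → Q) (p : ι) : pos cen p = (blockLT cen p).card := rfl

omit [DecidableEq ι] in
theorem not_mem_blockLT_self (cen : ι → Q) (p : ι) : p ∉ blockLT cen p := by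
  simp [mem_blockLT]

theorem blockLE_eq_insert (cen : ι → Q) (p : ι) : blockLE cen p = insert p (blockLT cen p) := by
  ext c
  simp only [mem_blockLE, mem_blockLT, Finset.mem_insert, le_iff_eq_or_lt]
  constructor
  · rintro ⟨hc, rfl | h⟩
    · exact Or.inl rfl
    · exact Or.inr ⟨hc, h⟩
  · rintro (rfl | ⟨hc, h⟩)
    · exact ⟨rfl, Or.inl rfl⟩
    · exact ⟨hc, Or.inr h⟩

/-- the row `p` is a divided difference over `pos cen p + 1` nodes -/
theorem card_blockLE (cen : ι → Q) (p : ι) : (blockLE cen p).card = pos cen p + 1 := by
  rw [blockLE_eq_insert, Finset.card_insert_of_notMem (not_mem_blockLT_self cen p), pos_def]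

omit [DecidableEq ι] in
theorem blockLE_nonempty (cen : ι → Q) (p : ι) : (blockLE cen p).Nonempty :=
  ⟨p, mem_blockLE.mpr ⟨rfl, le_rfl⟩⟩

omit [DecidableEq ι] in
theorem blockLT_subset_blockLE (cen : ι → Q) (p : ι) : blockLT cen p ⊆ blockLE cen p := by
  intro c hc
  obtain ⟨h1, h2⟩ := mem_blockLT.mp hc
  exact mem_blockLE.mpr ⟨h1, h2.le⟩

omit [DecidableEq ι] in
theorem blockLE_subset_block (cen : ι → Q) (p : ι) : blockLE cen p ⊆ block cen (cen p) := by
  intro c hc
  exact mem_block.mpr (mem_blockLE.mp hc).1

omit [DecidableEq ι] in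
/-- `pos` is strictly increasing inside a block -/
theorem pos_lt_pos {cen : ι → Q} {p p' : ι} (hc : cen p = cen p') (h : p < p') :
    pos cen p < pos cen p' := by
  unfold pos
  refine Finset.card_lt_card ⟨?_, ?_⟩
  · intro c hcm
    obtain ⟨h1, h2⟩ := mem_blockLT.mp hcm
    exact mem_blockLT.mpr ⟨h1.trans hc, h2.trans h⟩
  · intro hsub
    exact not_mem_blockLT_self cen p (hsub (mem_blockLT.mpr ⟨hc, h⟩))

omit [DecidableEq ι] in
/-- `pos` is injective inside a block -/
theorem eq_of_pos_eq {cen : ι → Q} {p p' : ι} (hc : cen p = cen p')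
    (h : pos cen p = pos cen p') : p = p' := by
  rcases lt_trichotomy p p' with hlt | heq | hgt
  · exact absurd h (ne_of_lt (pos_lt_pos hc hlt))
  · exact heq
  · exact absurd h.symm (ne_of_lt (pos_lt_pos hc.symm hgt))

omit [DecidableEq ι] in
/-- `p ↦ (cen p, pos cen p)` is injective (helper3's OSC shape 4859 (5)) -/
theorem cen_pos_injective (cen : ι → Q) : Function.Injective fun p => (cen p, pos cen p) := by
  intro p p' h
  simp only [Prod.mk.injEq] at h
  exact eq_of_pos_eq h.1 h.2

omit [DecidableEq ι] in
/-- `pos cen p` is smaller than the size of the block of `p` -/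
theorem pos_lt_card_block (cen : ι → Q) (p : ι) : pos cen p < (block cen (cen p)).card := by
  unfold pos
  refine Finset.card_lt_card ⟨?_, ?_⟩
  · intro c hcm
    exact mem_block.mpr (mem_blockLT.mp hcm).1
  · intro hsub
    exact not_mem_blockLT_self cen p (hsub (mem_block.mpr rfl))

omit [DecidableEq ι] in
/-- every rank below the size of a block is attained: the rows of the block of `q` carry exactly
the jets `0, …, #block - 1` -/
theorem exists_pos_eq (cen : ι → Q) (q : Q) {n : ℕ} (hn : n < (block cen q).card) :
    ∃ p, cen p = q ∧ pos cen p = n := by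
  classical
  have hinj : Set.InjOn (pos cen) ↑(block cen q) := by
    intro p hp p' hp' h
    exact eq_of_pos_eq ((mem_block.mp (Finset.mem_coe.mp hp)).trans
      (mem_block.mp (Finset.mem_coe.mp hp')).symm) h
  have hsub : (block cen q).image (pos cen) ⊆ Finset.range (block cen q).card := by
    intro m hm
    obtain ⟨p, hp, rfl⟩ := Finset.mem_image.mp hm
    have hq : cen p = q := mem_block.mp hp
    rw [Finset.mem_range, ← hq]
    exact pos_lt_card_block cen p
  have hcard : (Finset.range (block cen q).card).card ≤ ((block cen q).image (pos cen)).card := by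
    rw [Finset.card_range, Finset.card_image_of_injOn hinj]
  have heq := Finset.eq_of_subset_of_card_le hsub hcard
  have hmem : n ∈ (block cen q).image (pos cen) := by
    rw [heq]; exact Finset.mem_range.mpr hn
  obtain ⟨p, hp, rfl⟩ := Finset.mem_image.mp hmem
  exact ⟨p, mem_block.mp hp, rfl⟩

omit [DecidableEq ι] [LinearOrder ι] in
/-- the sizes of the blocks add up to the number of rows -/
theorem sum_card_block [Fintype Q] (cen : ι → Q) : ∑ q, (block cen q).card = Fintype.card ι := by
  classical
  unfold block
  rw [← Finset.card_univ]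
  exact (Finset.card_eq_sum_card_fiberwise (f := cen) (t := Finset.univ)
    (fun _ _ => Finset.mem_univ _)).symm

end Fermat.Agent.GR.H.LT.NewtonPos
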