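/-
GATE-R (S17) / H — node GR-H-LT-OSC, hedge twin (helper73), consumer shape helper3 board 4859 (5).

**Osculation / jets surjectivity above the Riemann threshold.**  Abstract frame: a function field
`F / K` with the Riemann–Roch package, a divisor `A` (in the gate `A = L·∞`), a finite family of
"jet conditions" `p : ι`, each a pair `(cen p, pos p)` of a place of degree one and an order, such
that at every centre `v` exactly the orders `0, …, n_v - 1` occur (`n_v = #{p | cen p = v}`):
`p ↦ (cen p, pos p)` injective and `pos p < n_{cen p}`.  With uniformisers `t v`, regularising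
factors `u v` (`ord_v (u v) = A v`, so that `u v * f` is regular at `v` for `f ∈ L(A)`) and a basis
`b` of `L(A)`, the jet matrix

  `jetMat p j = taylorCoeff (cen p) (t (cen p)) (pos p) (u (cen p) * b j)`

has kernel the coordinate space of `L(A - Σ_p cen p)`; hence, as soon as `deg A ≥ c + card ι`
(`c` the threshold of `RR/Final.exists_ell_eq`), it has rank `card ι`, its rows are linearly
independent and some maximal minor is non-zero:

  `∃ c0 : ι → κ, det (fun p q => jetMat p (c0 q)) ≠ 0`      (`exists_det_ne_zero`).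
-/
import Mathlib
import Fermat.Agent.GR.H.PlaceVal
import Fermat.Agent.GR.H.PL.Ev
import Fermat.Agent.GR.H.MulCert

set_option autoImplicit false
set_option linter.unusedSectionVars false

noncomputable section

open AlgebraicCurve

namespace Fermat.Agent.GR.H.LT.Osc73

open Fermat.Agent.RRh45 Fermat.Agent.S24 Fermat.Agent.GH Fermat.Agent.GH.Disc
open Fermat.Agent.GR.H.PlaceVal Fermat.Agent.GR.H.PL.Ev

variable {K F : Type*} [Field K] [Field F] [Algebra K F]

/-! ### combinatorics of the jet conditions -/

section Comb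

variable {ι α : Type*} [Fintype ι]

open Classical in
/-- the number of conditions centred at `v`. -/
def mult (cen : ι → α) (v : α) : ℕ := (Finset.univ.filter fun p => cen p = v).card

/-- if `p ↦ (cen p, pos p)` is injective and `pos p < mult (cen p)`, every order `j < mult v`
occurs at the centre `v`. -/
theorem exists_pos_eq {cen : ι → α} {pos : ι → ℕ}
    (hinj : Function.Injective fun p => (cen p, pos p))
    (hpos : ∀ p, pos p < mult cen (cen p)) (v : α) (j : ℕ) (hj : j < mult cen v) :
    ∃ p, cen p = v ∧ pos p = j := by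
  classical
  set S : Finset ι := Finset.univ.filter fun p => cen p = v with hS
  have hmaps : ∀ p ∈ S, pos p ∈ Finset.range (mult cen v) := by
    intro p hp
    rw [hS, Finset.mem_filter] at hp
    rw [Finset.mem_range]
    have := hpos p
    rwa [hp.2] at this
  have hinjS : Set.InjOn pos S := by
    intro p hp q hq hpq
    rw [hS, Finset.coe_filter] at hp hq
    exact hinj (Prod.ext (hp.2.trans hq.2.symm) hpq)
  have hcard : (Finset.range (mult cen v)).card ≤ S.card := by
    rw [Finset.card_range]
    exact le_of_eq rfl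
  have hsurj := Finset.surj_on_of_inj_on_of_card_le (fun p _ => pos p) hmaps
    (fun p q hp hq h => hinjS hp hq h) hcard j (Finset.mem_range.mpr hj)
  obtain ⟨p, hp, hpj⟩ := hsurj
  rw [hS, Finset.mem_filter] at hp
  exact ⟨p, hp.2, hpj.symm⟩

end Comb

/-! ### the divisor of the conditions -/

section Div

variable {ι : Type*} [Fintype ι]

theorem sumDiv_apply (cen : ι → Place K F) (v : Place K F) :
    sumDiv cen v = (mult cen v : ℤ) := by
  classical
  unfold sumDiv mult
  rw [Finsupp.finsetSum_apply, Finset.card_filter, Nat.cast_sum]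
  refine Finset.sum_congr rfl fun p _ => ?_
  rw [Finsupp.single_apply]
  split_ifs <;> simp

end Div

/-! ### the jet matrix and its kernel -/

section Jet

variable {ι κ : Type*} [Fintype ι] [Fintype κ]
variable (cen : ι → Place K F) (pos : ι → ℕ) (t u : Place K F → F)

/-- the jet matrix `(pos p)`-th Taylor coefficient at `cen p` of the regularised `u · b j`. -/
def jetMat (b : κ → F) : Matrix ι κ K :=
  Matrix.of fun p j => taylorCoeff (cen p) (t (cen p)) (pos p) (u (cen p) * b j)

@[simp] theorem jetMat_apply (b : κ → F) (p : ι) (j : κ) :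
    jetMat cen pos t u b p j = taylorCoeff (cen p) (t (cen p)) (pos p) (u (cen p) * b j) := rfl

variable {cen pos t u}
variable {A : Divisor K F}

/-- `u v * f` is regular at `v` for `f ∈ L(A)` when `ord_v (u v) = A v`. -/
theorem reg_mul_mem {v : Place K F} {w f : F} (hw0 : w ≠ 0) (hw : v.ord w = A v)
    (hf : f ∈ riemannRochSpace A) : w * f ∈ v.toValuationSubring := by
  rcases eq_or_ne f 0 with rfl | hf0
  · rw [mul_zero]; exact zero_mem _
  · have h := (mem_riemannRochSpace_iff.mp hf v).resolve_left hf0
    rw [← PlaceB.ord_nonneg_iff v (mul_ne_zero hw0 hf0), v.ord_mul hw0 hf0, hw]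
    omega

/-- `(jetMat c) p = (pos p)`-th Taylor coefficient of `u · Σ c_j b_j`. -/
theorem jetMat_mulVec (hP : ∀ p, (cen p).deg = 1) (ht : ∀ p, (cen p).ord (t (cen p)) = 1)
    (hu0 : ∀ p, u (cen p) ≠ 0) (hu : ∀ p, (cen p).ord (u (cen p)) = A (cen p))
    {b : κ → F} (hb : ∀ j, b j ∈ riemannRochSpace A) (c : κ → K) (p : ι) :
    (jetMat cen pos t u b).mulVec c p =
      taylorCoeff (cen p) (t (cen p)) (pos p) (u (cen p) * ∑ j, c j • b j) := by
  have hreg : ∀ j ∈ (Finset.univ : Finset κ),
      c j • (u (cen p) * b j) ∈ (cen p).toValuationSubring := fun j _ =>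
    smul_mem_valuationSubring (cen p) (c j) (reg_mul_mem (hu0 p) (hu p) (hb j))
  have hsum : u (cen p) * ∑ j, c j • b j = ∑ j, c j • (u (cen p) * b j) := by
    rw [Finset.mul_sum]
    exact Finset.sum_congr rfl fun j _ => by rw [mul_smul_comm]
  rw [hsum, taylorCoeff_sum (hP p) (ht p) Finset.univ _ hreg]
  simp only [Matrix.mulVec, dotProduct, jetMat_apply]
  refine Finset.sum_congr rfl fun j _ => ?_
  rw [taylorCoeff_smul (hP p) (ht p) (c j) (reg_mul_mem (hu0 p) (hu p) (hb j)), mul_comm]

/-- **`L(A - Σ_p cen p)` is the space of functions of `L(A)` all of whose prescribed jets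
vanish.** -/
theorem mem_sub_sumDiv_iff_jets (hinj : Function.Injective fun p => (cen p, pos p))
    (hpos : ∀ p, pos p < mult cen (cen p))
    (hP : ∀ p, (cen p).deg = 1) (ht : ∀ p, (cen p).ord (t (cen p)) = 1)
    (hu0 : ∀ p, u (cen p) ≠ 0) (hu : ∀ p, (cen p).ord (u (cen p)) = A (cen p))
    {f : F} (hf : f ∈ riemannRochSpace A) :
    f ∈ riemannRochSpace (A - sumDiv cen) ↔
      ∀ p, taylorCoeff (cen p) (t (cen p)) (pos p) (u (cen p) * f) = 0 := by
  classical
  constructor
  · intro h p
    have hreg := reg_mul_mem (hu0 p) (hu p) hf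
    have hvan : u (cen p) * f = 0 ∨ ((mult cen (cen p) : ℕ) : ℤ) ≤ (cen p).ord (u (cen p) * f) := by
      rcases eq_or_ne f 0 with rfl | hf0
      · left; rw [mul_zero]
      · right
        have h1 := (mem_riemannRochSpace_iff.mp h (cen p)).resolve_left hf0
        rw [Finsupp.sub_apply, sumDiv_apply] at h1
        rw [(cen p).ord_mul (hu0 p) hf0, hu p]
        omega
    exact (taylorCoeff_eq_zero_iff (hP p) (ht p) hreg (mult cen (cen p))).mpr hvan (pos p) (hpos p)
  · intro h
    rw [mem_riemannRochSpace_iff]
    intro v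
    rcases eq_or_ne f 0 with rfl | hf0
    · exact Or.inl rfl
    right
    have hfA := (mem_riemannRochSpace_iff.mp hf v).resolve_left hf0
    rw [Finsupp.sub_apply, sumDiv_apply]
    by_cases hv : ∃ p, cen p = v
    · obtain ⟨p0, rfl⟩ := hv
      have hreg := reg_mul_mem (hu0 p0) (hu p0) hf
      have hall : ∀ j < mult cen (cen p0),
          taylorCoeff (cen p0) (t (cen p0)) j (u (cen p0) * f) = 0 := by
        intro j hj
        obtain ⟨p, hp, hpj⟩ := exists_pos_eq hinj hpos (cen p0) j hj
        have := h p
        rwa [hp, hpj] at this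
      rcases (taylorCoeff_eq_zero_iff (hP p0) (ht p0) hreg (mult cen (cen p0))).mp hall with h0 | h1
      · exact absurd h0 (mul_ne_zero (hu0 p0) hf0)
      · rw [(cen p0).ord_mul (hu0 p0) hf0, hu p0] at h1
        omega
    · have hm : mult cen v = 0 := by
        unfold mult
        rw [Finset.card_eq_zero, Finset.filter_eq_empty_iff]
        intro p _ hp
        exact hv ⟨p, hp⟩
      rw [hm]
      simpa using hfA

/-- **the kernel of the jet matrix is the coordinate space of `L(A - Σ_p cen p)`.** -/
theorem mulVec_eq_zero_iff_jets (hinj : Function.Injective fun p => (cen p, pos p))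
    (hpos : ∀ p, pos p < mult cen (cen p))
    (hP : ∀ p, (cen p).deg = 1) (ht : ∀ p, (cen p).ord (t (cen p)) = 1)
    (hu0 : ∀ p, u (cen p) ≠ 0) (hu : ∀ p, (cen p).ord (u (cen p)) = A (cen p))
    {b : κ → F} (hb : ∀ j, b j ∈ riemannRochSpace A) (c : κ → K) :
    (jetMat cen pos t u b).mulVec c = 0 ↔
      ∑ j, c j • b j ∈ riemannRochSpace (A - sumDiv cen) := by
  rw [mem_sub_sumDiv_iff_jets hinj hpos hP ht hu0 hu (sum_smul_mem hb c), funext_iff]
  refine forall_congr' fun p => ?_
  rw [jetMat_mulVec hP ht hu0 hu hb c p]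
  rfl

/-! ### rank -/

/-- the kernel of the jet matrix of a basis of `L(A)` is the image of `L(A - Σ_p cen p)` under
the coordinate isomorphism. -/
theorem ker_mulVecLin_jetMat (hinj : Function.Injective fun p => (cen p, pos p))
    (hpos : ∀ p, pos p < mult cen (cen p))
    (hP : ∀ p, (cen p).deg = 1) (ht : ∀ p, (cen p).ord (t (cen p)) = 1)
    (hu0 : ∀ p, u (cen p) ≠ 0) (hu : ∀ p, (cen p).ord (u (cen p)) = A (cen p))
    (b : Module.Basis κ K (riemannRochSpace A)) :
    LinearMap.ker (Matrix.mulVecLin (jetMat cen pos t u (basisFun b))) =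
      ((riemannRochSpace (A - sumDiv cen)).comap (riemannRochSpace A).subtype).map
        (b.equivFun : riemannRochSpace A ≃ₗ[K] (κ → K)).toLinearMap := by
  ext c
  rw [LinearMap.mem_ker, Matrix.mulVecLin_apply,
    mulVec_eq_zero_iff_jets hinj hpos hP ht hu0 hu (basisFun_mem b) c, Submodule.mem_map]
  constructor
  · intro h
    refine ⟨b.equivFun.symm c, ?_, ?_⟩
    · show ((b.equivFun.symm c : riemannRochSpace A) : F) ∈ riemannRochSpace (A - sumDiv cen)
      rw [coe_equivFun_symm]
      exact h
    · exact LinearEquiv.apply_symm_apply _ _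
  · rintro ⟨x, hx, rfl⟩
    have hx' : (x : F) ∈ riemannRochSpace (A - sumDiv cen) := hx
    have : (x : F) = ∑ j, (b.equivFun x) j • basisFun b j := by
      rw [← coe_equivFun_symm, LinearEquiv.symm_apply_apply]
    rw [LinearEquiv.coe_coe, ← this]
    exact hx'

/-- **rank–nullity for the jet matrix**: `rank jetMat + ℓ(A - Σ_p cen p) = ℓ(A)`. -/
theorem rank_jetMat_add (hinj : Function.Injective fun p => (cen p, pos p))
    (hpos : ∀ p, pos p < mult cen (cen p))
    (hP : ∀ p, (cen p).deg = 1) (ht : ∀ p, (cen p).ord (t (cen p)) = 1)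
    (hu0 : ∀ p, u (cen p) ≠ 0) (hu : ∀ p, (cen p).ord (u (cen p)) = A (cen p))
    (b : Module.Basis κ K (riemannRochSpace A)) :
    (jetMat cen pos t u (basisFun b)).rank +
      Module.finrank K (riemannRochSpace (A - sumDiv cen)) = Fintype.card κ := by
  have hker : Module.finrank K (LinearMap.ker (Matrix.mulVecLin (jetMat cen pos t u (basisFun b))))
      = Module.finrank K (riemannRochSpace (A - sumDiv cen)) := by
    rw [ker_mulVecLin_jetMat hinj hpos hP ht hu0 hu b, LinearEquiv.finrank_map_eq]
    exact (Submodule.comapSubtypeEquivOfLe (riemannRochSpace_sub_sumDiv_le cen A)).finrank_eq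
  rw [← hker, Matrix.rank, LinearMap.finrank_range_add_finrank_ker,
    Module.finrank_fintype_fun_eq_card]

/-- **the jet matrix has full row rank above the Riemann threshold.** -/
theorem rank_jetMat_eq_card (hinj : Function.Injective fun p => (cen p, pos p))
    (hpos : ∀ p, pos p < mult cen (cen p))
    (hP : ∀ p, (cen p).deg = 1) (ht : ∀ p, (cen p).ord (t (cen p)) = 1)
    (hu0 : ∀ p, u (cen p) ≠ 0) (hu : ∀ p, (cen p).ord (u (cen p)) = A (cen p))
    (b : Module.Basis κ K (riemannRochSpace A)) {c : ℤ}
    (hc : ∀ D : Divisor K F, c ≤ Divisor.degree D →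
      (Module.finrank K (riemannRochSpace D) : ℤ) =
        Divisor.degree D + Module.finrank K (riemannRochSpace (0 : Divisor K F)) - genusFF K F)
    (hdeg : c + Fintype.card ι ≤ Divisor.degree A) :
    (jetMat cen pos t u (basisFun b)).rank = Fintype.card ι := by
  have h0 := rank_jetMat_add hinj hpos hP ht hu0 hu b
  have hdegD : Divisor.degree (A - sumDiv cen) = Divisor.degree A - Fintype.card ι := by
    rw [map_sub, degree_sumDiv hP]
  have h1 := hc A (by linarith)
  have h2 := hc (A - sumDiv cen) (by rw [hdegD]; linarith)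
  have h3 : (Fintype.card κ : ℤ) = Module.finrank K (riemannRochSpace A) := by
    rw [Module.finrank_eq_card_basis b]
  rw [hdegD] at h2
  have h0' : ((jetMat cen pos t u (basisFun b)).rank : ℤ) +
      Module.finrank K (riemannRochSpace (A - sumDiv cen)) = Fintype.card κ := by exact_mod_cast h0
  have : ((jetMat cen pos t u (basisFun b)).rank : ℤ) = Fintype.card ι := by linarith
  exact_mod_cast this

/-- the rows of a matrix of full row rank are linearly independent. -/
theorem linearIndependent_rows_of_rank {M : Matrix ι κ K} (hr : M.rank = Fintype.card ι) :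
    LinearIndependent K M.row := by
  rw [linearIndependent_iff_card_eq_finrank_span, ← hr, Matrix.rank_eq_finrank_span_row]
  rfl

/-- **(OSC), matrix form**: above the Riemann threshold some maximal minor of the jet matrix is
non-zero. -/
theorem exists_det_ne_zero [DecidableEq ι] [DecidableEq κ]
    (hinj : Function.Injective fun p => (cen p, pos p))
    (hpos : ∀ p, pos p < mult cen (cen p))
    (hP : ∀ p, (cen p).deg = 1) (ht : ∀ p, (cen p).ord (t (cen p)) = 1)
    (hu0 : ∀ p, u (cen p) ≠ 0) (hu : ∀ p, (cen p).ord (u (cen p)) = A (cen p))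
    (b : Module.Basis κ K (riemannRochSpace A)) {c : ℤ}
    (hc : ∀ D : Divisor K F, c ≤ Divisor.degree D →
      (Module.finrank K (riemannRochSpace D) : ℤ) =
        Divisor.degree D + Module.finrank K (riemannRochSpace (0 : Divisor K F)) - genusFF K F)
    (hdeg : c + Fintype.card ι ≤ Divisor.degree A) :
    ∃ c0 : ι → κ, Matrix.det (Matrix.of fun p q =>
      taylorCoeff (cen p) (t (cen p)) (pos p) (u (cen p) * basisFun b (c0 q))) ≠ 0 := by
  have hr := rank_jetMat_eq_card (pos := pos) (t := t) (u := u) hinj hpos hP ht hu0 hu b hc hdeg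
  have hli := linearIndependent_rows_of_rank hr
  have hne := Fermat.Agent.GR.H.MulCert.minorsAll_ne_zero_of_linearIndependent _ hli
  obtain ⟨c0, hc0⟩ := Function.ne_iff.mp hne
  refine ⟨c0, ?_⟩
  rw [Pi.zero_apply, Fermat.Agent.GR.H.CauchyBinet.minorsAll_apply] at hc0
  exact hc0

end Jet

/-! ### threshold form -/

section Threshold

variable [FiniteResidues K F] [HasPrincipalDivisors K F] [Nonempty (Place K F)]

variable (K F) in
/-- **(OSC)**: there is a threshold `c` (that of `RR/Final.exists_ell_eq`) such that for every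
divisor `A` with `deg A ≥ c + card ι`, every system of jet conditions `(cen, pos)` (complete at
each centre), uniformisers `t`, regularising factors `u` and basis `b` of `L(A)`, some maximal
minor of the jet matrix is non-zero. -/
theorem exists_threshold_det_ne_zero : ∃ c : ℤ, ∀ {ι κ : Type} [Fintype ι] [DecidableEq ι]
    [Fintype κ] [DecidableEq κ] (cen : ι → Place K F) (pos : ι → ℕ) (t u : Place K F → F) (A : Divisor K F),
    (Function.Injective fun p => (cen p, pos p)) → (∀ p, pos p < mult cen (cen p)) →
    (∀ p, (cen p).deg = 1) → (∀ p, (cen p).ord (t (cen p)) = 1) →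
    (∀ p, u (cen p) ≠ 0) → (∀ p, (cen p).ord (u (cen p)) = A (cen p)) →
    ∀ b : Module.Basis κ K (riemannRochSpace A), c + Fintype.card ι ≤ Divisor.degree A →
    ∃ c0 : ι → κ, Matrix.det (Matrix.of fun p q =>
      taylorCoeff (cen p) (t (cen p)) (pos p) (u (cen p) * basisFun b (c0 q))) ≠ 0 := by
  obtain ⟨c, hc⟩ := Fermat.Agent.RR.exists_ell_eq K F
  exact ⟨c, fun cen pos t u A hinj hpos hP ht hu0 hu b hdeg =>
    exists_det_ne_zero hinj hpos hP ht hu0 hu b (fun D hD => (hc D hD).1) hdeg⟩

end Threshold

end Fermat.Agent.GR.H.LT.Osc73
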