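/-
GATE-R (S17) / H — node GR-H-LT-OSC (helper73), part 2: the **spanning-family form** of
`Osc73.exists_det_ne_zero` (the shape helper3 4973 / helper37 4963 consume): `b : κ → F` any
finite family of functions of `L(A)` spanning `L(A)` (not necessarily a basis).

`jetMat b' = jetMat b * C` for the coordinate matrix `C` of a basis `b'` of `L(A)` in the
family `b`, hence `card ι = rank (jetMat b') ≤ rank (jetMat b)`.
-/
import Mathlib
import Fermat.Agent.GR.H.LT.Osc73

set_option autoImplicit false
set_option linter.unusedSectionVars false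

noncomputable section

open AlgebraicCurve

namespace Fermat.Agent.GR.H.LT.Osc73

open Fermat.Agent.RRh45 Fermat.Agent.S24 Fermat.Agent.GH Fermat.Agent.GH.Disc
open Fermat.Agent.GR.H.PlaceVal Fermat.Agent.GR.H.PL.Ev

universe uι uκ

variable {K F : Type*} [Field K] [Field F] [Algebra K F]

section Span

variable {ι : Type uι} {κ : Type uκ} [Fintype ι] [Fintype κ]
variable {cen : ι → Place K F} {pos : ι → ℕ} {t u : Place K F → F} {A : Divisor K F}

/-- a finite spanning family makes `L(A)` finite dimensional. -/
theorem finite_of_span {b : κ → F} (hb : ∀ j, b j ∈ riemannRochSpace A)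
    (hspan : riemannRochSpace A ≤ Submodule.span K (Set.range b)) :
    Module.Finite K (riemannRochSpace A) := by
  have heq : riemannRochSpace A = Submodule.span K (Set.range b) :=
    le_antisymm hspan (Submodule.span_le.mpr (by rintro _ ⟨j, rfl⟩; exact hb j))
  rw [heq]
  exact Module.Finite.span_of_finite K (Set.finite_range b)

/-- **full row rank for a spanning family.** -/
theorem rank_jetMat_eq_card_of_span (hinj : Function.Injective fun p => (cen p, pos p))
    (hpos : ∀ p, pos p < mult cen (cen p))
    (hP : ∀ p, (cen p).deg = 1) (ht : ∀ p, (cen p).ord (t (cen p)) = 1)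
    (hu0 : ∀ p, u (cen p) ≠ 0) (hu : ∀ p, (cen p).ord (u (cen p)) = A (cen p))
    {b : κ → F} (hb : ∀ j, b j ∈ riemannRochSpace A)
    (hspan : riemannRochSpace A ≤ Submodule.span K (Set.range b)) {c : ℤ}
    (hc : ∀ D : Divisor K F, c ≤ Divisor.degree D →
      (Module.finrank K (riemannRochSpace D) : ℤ) =
        Divisor.degree D + Module.finrank K (riemannRochSpace (0 : Divisor K F)) - genusFF K F)
    (hdeg : c + Fintype.card ι ≤ Divisor.degree A) :
    (jetMat cen pos t u b).rank = Fintype.card ι := by
  classical
  have := finite_of_span hb hspan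
  set b' := Module.finBasis K (riemannRochSpace A) with hb'
  have hr := rank_jetMat_eq_card (pos := pos) (t := t) (u := u) hinj hpos hP ht hu0 hu b' hc hdeg
  -- coordinates of the basis vectors in the spanning family
  have hex : ∀ k, ∃ ck : κ → K, ∑ j, ck j • b j = basisFun b' k := fun k =>
    (Submodule.mem_span_range_iff_exists_fun K).mp (hspan (basisFun_mem b' k))
  choose C hC using hex
  have hmul : jetMat cen pos t u (basisFun b') =
      jetMat cen pos t u b * Matrix.of fun j k => C k j := by
    ext p k
    have h1 := jetMat_mulVec (pos := pos) hP ht hu0 hu hb (C k) p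
    rw [hC k] at h1
    rw [jetMat_apply, ← h1]
    simp [Matrix.mul_apply, Matrix.mulVec, dotProduct]
  have hle : (jetMat cen pos t u (basisFun b')).rank ≤ (jetMat cen pos t u b).rank := by
    rw [hmul]
    exact Matrix.rank_mul_le_left _ _
  have hle' : (jetMat cen pos t u b).rank ≤ Fintype.card ι := Matrix.rank_le_card_height _
  omega

/-- **(OSC), spanning-family form.** -/
theorem exists_det_ne_zero_of_span [DecidableEq ι] [DecidableEq κ]
    (hinj : Function.Injective fun p => (cen p, pos p))
    (hpos : ∀ p, pos p < mult cen (cen p))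
    (hP : ∀ p, (cen p).deg = 1) (ht : ∀ p, (cen p).ord (t (cen p)) = 1)
    (hu0 : ∀ p, u (cen p) ≠ 0) (hu : ∀ p, (cen p).ord (u (cen p)) = A (cen p))
    {b : κ → F} (hb : ∀ j, b j ∈ riemannRochSpace A)
    (hspan : riemannRochSpace A ≤ Submodule.span K (Set.range b)) {c : ℤ}
    (hc : ∀ D : Divisor K F, c ≤ Divisor.degree D →
      (Module.finrank K (riemannRochSpace D) : ℤ) =
        Divisor.degree D + Module.finrank K (riemannRochSpace (0 : Divisor K F)) - genusFF K F)
    (hdeg : c + Fintype.card ι ≤ Divisor.degree A) :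
    ∃ c0 : ι → κ, Matrix.det (Matrix.of fun p q =>
      taylorCoeff (cen p) (t (cen p)) (pos p) (u (cen p) * b (c0 q))) ≠ 0 := by
  have hr := rank_jetMat_eq_card_of_span (pos := pos) (t := t) (u := u) hinj hpos hP ht hu0 hu
    hb hspan hc hdeg
  have hli := linearIndependent_rows_of_rank hr
  have hne := Fermat.Agent.GR.H.MulCert.minorsAll_ne_zero_of_linearIndependent _ hli
  obtain ⟨c0, hc0⟩ := Function.ne_iff.mp hne
  refine ⟨c0, ?_⟩
  rw [Pi.zero_apply, Fermat.Agent.GR.H.CauchyBinet.minorsAll_apply] at hc0
  exact hc0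

end Span

section Threshold

variable [FiniteResidues K F] [HasPrincipalDivisors K F] [Nonempty (Place K F)]

variable (K F) in
/-- **(OSC), threshold + spanning-family form** (universe-polymorphic in the index types; the
jet-count `#{p' | cen p' = cen p}` is `mult cen (cen p)`). -/
theorem exists_threshold_det_ne_zero_of_span : ∃ c : ℤ,
    ∀ {ι : Type uι} {κ : Type uκ} [Fintype ι] [DecidableEq ι] [Fintype κ] [DecidableEq κ]
    (cen : ι → Place K F) (pos : ι → ℕ),
    (Function.Injective fun p => (cen p, pos p)) → (∀ p, pos p < mult cen (cen p)) →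
    (∀ p, (cen p).deg = 1) → ∀ A : Divisor K F, c + Fintype.card ι ≤ Divisor.degree A →
    ∀ t u : Place K F → F, (∀ p, (cen p).ord (t (cen p)) = 1) →
    (∀ p, u (cen p) ≠ 0 ∧ (cen p).ord (u (cen p)) = A (cen p)) →
    ∀ b : κ → F, (∀ j, b j ∈ riemannRochSpace A) →
    riemannRochSpace A ≤ Submodule.span K (Set.range b) →
    ∃ c0 : ι → κ, Matrix.det (Matrix.of fun p q =>
      taylorCoeff (cen p) (t (cen p)) (pos p) (u (cen p) * b (c0 q))) ≠ 0 := by
  obtain ⟨c, hc⟩ := Fermat.Agent.RR.exists_ell_eq K F
  exact ⟨c, fun cen pos hinj hpos hP A hdeg t u ht hu b hb hspan =>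
    exists_det_ne_zero_of_span hinj hpos hP ht (fun p => (hu p).1) (fun p => (hu p).2) hb hspan
      (fun D hD => (hc D hD).1) hdeg⟩

/-- `mult` unfolded: the number of conditions with the same centre. -/
theorem mult_eq_card {ι : Type*} [Fintype ι] {α : Type*} [DecidableEq α] (cen : ι → α) (v : α) :
    mult cen v = (Finset.univ.filter fun p => cen p = v).card := by
  unfold mult
  congr 1
  ext p
  simp

end Threshold

end Fermat.Agent.GR.H.LT.Osc73
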