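/-
GATE-R / S17, node GR-H-LT-OSC, second seat (helper37): **(OSC)** of DESIGN-H v2 in the consumer
shape of board 4859 (5), on helper48's `GR/H/PlaceVal.taylorCoeff`.

Abstract frame: a function field `F / K` in the prelude `Place K F` API with the RR typeclasses,
all places of degree one.  For a divisor `A` above the Riemann threshold, jet conditions
`p ↦ (cen p, pos p)` (the `pos p`-th Taylor coefficient at the place `cen p`, with all jets
`0 .. n_v - 1` present at each centre `v`), regularising factors `u v` with `ord_v (u v) = A v`,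
and a spanning family `b` of `L(A)`: some maximal minor of the jet matrix
`(taylorCoeff (cen p) (t (cen p)) (pos p) (u (cen p) * b j))_{p, j}` is nonzero.
-/
import Mathlib
import Fermat.Agent.GR.H.PlaceVal
import Fermat.Agent.GR.H.MulCert
import Fermat.Agent.RR.Final

set_option autoImplicit false
set_option linter.unusedSectionVars false
set_option linter.unusedVariables false

noncomputable section

open AlgebraicCurve Matrix

namespace Fermat.Agent.GR.H.LT.OscAbs

open Fermat.Agent.RRh45 Fermat.Agent.S24 Fermat.Agent.GR.H.PlaceVal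
  Fermat.Agent.GR.H.CauchyBinet Fermat.Agent.GR.H.MulCert

variable {K F : Type*} [Field K] [Field F] [Algebra K F]

/-! ### a function with exact pole order at one place -/

section Exact

variable [FiniteResidues K F] [HasPrincipalDivisors K F] [Nonempty (Place K F)]

/-- above the Riemann threshold, `L(D - v) ≠ L(D)` for a place `v` of degree one: there is
`f ∈ L(D)` with `ord_v f = - D v` exactly. -/
theorem exists_mem_ord_eq {c : ℤ}
    (hc : ∀ D : Divisor K F, c ≤ Divisor.degree D →
      (Module.finrank K (riemannRochSpace D) : ℤ) =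
        Divisor.degree D + Module.finrank K (riemannRochSpace (0 : Divisor K F)) - genusFF K F)
    (D : Divisor K F) (v : Place K F) (hv : v.deg = 1) (hD : c + 1 ≤ Divisor.degree D) :
    ∃ f : F, f ≠ 0 ∧ f ∈ riemannRochSpace D ∧ v.ord f = - D v := by
  classical
  have h1 := hc D (by omega)
  have hdeg : Divisor.degree (D - Finsupp.single v 1) = Divisor.degree D - 1 := by
    rw [map_sub, Divisor.degree_single, hv]; simp
  have h2 := hc (D - Finsupp.single v 1) (by rw [hdeg]; omega)
  have hle : riemannRochSpace (D - Finsupp.single v 1) ≤ riemannRochSpace D := by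
    refine Fermat.Agent.RR.Adelic.riemannRochSpace_mono ?_
    rw [sub_le_self_iff]
    exact Finsupp.single_nonneg.mpr zero_le_one
  have hne : riemannRochSpace (D - Finsupp.single v 1) ≠ riemannRochSpace D := by
    intro h
    rw [h, hdeg] at h2
    omega
  obtain ⟨f, hfD, hfn⟩ := SetLike.exists_of_lt (lt_of_le_of_ne hle hne)
  have hf0 : f ≠ 0 := by
    rintro rfl
    exact hfn (zero_mem _)
  refine ⟨f, hf0, hfD, ?_⟩
  have hD' := mem_riemannRochSpace_iff.mp hfD
  rw [mem_riemannRochSpace_iff] at hfn
  push Not at hfn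
  obtain ⟨w, -, hw⟩ := hfn
  have hwv : w = v := by
    by_contra hne'
    have := (hD' w).resolve_left hf0
    rw [Finsupp.sub_apply, Finsupp.single_eq_of_ne hne', sub_zero] at hw
    omega
  subst hwv
  have := (hD' w).resolve_left hf0
  rw [Finsupp.sub_apply, Finsupp.single_eq_same] at hw
  omega

end Exact

/-! ### Taylor coefficients and the order of vanishing -/

section Coeff

variable {P : Place K F} (hP : P.deg = 1) {t : F} (ht : P.ord t = 1)
include hP ht

/-- the Taylor coefficients below the order of vanishing are zero. -/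
theorem taylorCoeff_eq_zero_of_le_ord {g : F} (hg0 : g ≠ 0) {n : ℕ} (hn : (n : ℤ) ≤ P.ord g)
    {j : ℕ} (hj : j < n) : taylorCoeff P t j g = 0 := by
  have hmem : g ∈ P.toValuationSubring := (PlaceB.ord_nonneg_iff P hg0).mp (by omega)
  exact (taylorCoeff_eq_zero_iff hP ht hmem n).mpr (Or.inr hn) j hj

/-- the Taylor coefficient at the exact order of vanishing is nonzero. -/
theorem taylorCoeff_ne_zero_of_ord_eq {g : F} (hg0 : g ≠ 0) {m : ℕ} (hm : P.ord g = (m : ℤ)) :
    taylorCoeff P t m g ≠ 0 := by
  have hmem : g ∈ P.toValuationSubring := (PlaceB.ord_nonneg_iff P hg0).mp (by omega)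
  intro h0
  have hall : ∀ j < m + 1, taylorCoeff P t j g = 0 := by
    intro j hj
    rcases Nat.lt_succ_iff_lt_or_eq.mp hj with h | h
    · exact taylorCoeff_eq_zero_of_le_ord hP ht hg0 (le_of_eq hm.symm) h
    · rw [h]; exact h0
  rcases (taylorCoeff_eq_zero_iff hP ht hmem (m + 1)).mp hall with h | h
  · exact hg0 h
  · push_cast at h
    omega

end Coeff

/-- a regularised element of `L(A)` is regular at the place. -/
theorem mul_mem_valuationSubring {A : Divisor K F} {w : Place K F} {u f : F} (hu0 : u ≠ 0)
    (hu : w.ord u = A w) (hf : f ∈ riemannRochSpace A) : u * f ∈ w.toValuationSubring := by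
  by_cases hf0 : f = 0
  · rw [hf0, mul_zero]; exact zero_mem _
  · have h := (mem_riemannRochSpace_iff.mp hf w).resolve_left hf0
    refine (PlaceB.ord_nonneg_iff w (mul_ne_zero hu0 hf0)).mp ?_
    rw [w.ord_mul hu0 hf0, hu]
    omega

/-! ### the jet matrix has a nonzero maximal minor -/

section Main

variable [FiniteResidues K F] [HasPrincipalDivisors K F] [Nonempty (Place K F)]

/-- **(OSC)**, threshold as a hypothesis. -/
theorem exists_det_ne_zero_of_threshold {c : ℤ}
    (hc : ∀ D : Divisor K F, c ≤ Divisor.degree D →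
      (Module.finrank K (riemannRochSpace D) : ℤ) =
        Divisor.degree D + Module.finrank K (riemannRochSpace (0 : Divisor K F)) - genusFF K F)
    (hdeg : ∀ P : Place K F, P.deg = 1)
    {ι : Type*} [Fintype ι] [DecidableEq ι] [DecidableEq (Place K F)]
    (cen : ι → Place K F) (pos : ι → ℕ)
    (hinj : Function.Injective fun p => (cen p, pos p))
    (hpos : ∀ p, pos p < (Finset.univ.filter fun p' => cen p' = cen p).card)
    (A : Divisor K F) (hA : c + Fintype.card ι ≤ Divisor.degree A)
    (t u : Place K F → F) (ht : ∀ p, (cen p).ord (t (cen p)) = 1)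
    (hu0 : ∀ p, u (cen p) ≠ 0) (hu : ∀ p, (cen p).ord (u (cen p)) = A (cen p))
    {κ : Type*} [Fintype κ] [DecidableEq κ] (b : κ → F)
    (hb : ∀ j, b j ∈ riemannRochSpace A)
    (hspan : riemannRochSpace A ≤ Submodule.span K (Set.range b)) :
    ∃ c0 : ι → κ, Matrix.det (fun p q : ι =>
      taylorCoeff (cen p) (t (cen p)) (pos p) (u (cen p) * b (c0 q))) ≠ 0 := by
  -- the jet functionals
  set τ : ι → F → K := fun p f => taylorCoeff (cen p) (t (cen p)) (pos p) (u (cen p) * f) with hτ
  -- the divisors `D p`
  set off : ι → Finset ι := fun p => Finset.univ.filter fun p' => ¬ cen p' = cen p with hoff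
  set on : ι → Finset ι := fun p => Finset.univ.filter fun p' => cen p' = cen p with hon
  set D : ι → Divisor K F := fun p =>
    A - (∑ p' ∈ off p, Finsupp.single (cen p') (1 : ℤ)) - Finsupp.single (cen p) (pos p : ℤ)
    with hD
  have hcard : ∀ p, (off p).card + (on p).card = Fintype.card ι := by
    intro p
    have := Finset.card_filter_add_card_filter_not (s := (Finset.univ : Finset ι))
      (fun p' => cen p' = cen p)
    rw [Finset.card_univ] at this
    rw [hoff, hon]
    simp only
    omega
  have hdegD : ∀ p, c + 1 ≤ Divisor.degree (D p) := by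
    intro p
    have h1 : Divisor.degree (D p) = Divisor.degree A - (off p).card - (pos p : ℤ) := by
      rw [hD]
      simp only [map_sub, map_sum, Divisor.degree_single, hdeg, Nat.cast_one, mul_one,
        Finset.sum_const, nsmul_eq_mul]
    have h2 := hcard p
    have h3 := hpos p
    rw [h1]
    have h4 : (pos p : ℤ) + 1 ≤ ((on p).card : ℤ) := by exact_mod_cast h3
    have h5 : ((off p).card : ℤ) + ((on p).card : ℤ) = (Fintype.card ι : ℤ) := by
      exact_mod_cast h2
    omega
  -- values of `D p`
  have hsum_apply : ∀ p (w : Place K F),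
      (∑ p' ∈ off p, Finsupp.single (cen p') (1 : ℤ)) w
        = ((off p).filter fun p' => cen p' = w).card := by
    intro p w
    rw [Finsupp.finsetSum_apply, Finset.card_filter]
    push_cast
    refine Finset.sum_congr rfl fun p' _ => ?_
    rw [Finsupp.single_apply]
  have hD_self : ∀ p, D p (cen p) = A (cen p) - (pos p : ℤ) := by
    intro p
    have h0 : ((off p).filter fun p' => cen p' = cen p) = ∅ := by
      rw [Finset.filter_eq_empty_iff]
      intro p' hp'
      exact (Finset.mem_filter.mp hp').2
    rw [hD]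
    simp only [Finsupp.sub_apply, hsum_apply, h0, Finset.card_empty, Finsupp.single_eq_same]
    simp
  have hD_other : ∀ p p', cen p' ≠ cen p → D p (cen p') = A (cen p') - ((on p').card : ℤ) := by
    intro p p' hne
    have h0 : ((off p).filter fun p'' => cen p'' = cen p') = on p' := by
      ext p''
      simp only [hoff, hon, Finset.mem_filter, Finset.mem_univ, true_and]
      constructor
      · exact fun h => h.2
      · exact fun h => ⟨by rw [h]; exact hne, h⟩
    rw [hD]
    simp only [Finsupp.sub_apply, hsum_apply, h0]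
    rw [Finsupp.single_eq_of_ne hne]
    simp
  have hD_le : ∀ p, D p ≤ A := by
    intro p
    rw [hD]
    simp only
    rw [sub_sub]
    refine sub_le_self _ (add_nonneg (Finset.sum_nonneg fun p' _ => ?_) ?_)
    · exact Finsupp.single_nonneg.mpr zero_le_one
    · exact Finsupp.single_nonneg.mpr (by positivity)
  -- the triangular family
  have hf : ∀ p, ∃ f : F, f ≠ 0 ∧ f ∈ riemannRochSpace (D p) ∧ (cen p).ord f = - D p (cen p) :=
    fun p => exists_mem_ord_eq hc (D p) (cen p) (hdeg _) (hdegD p)
  choose f hf0 hfD hford using hf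
  have hfA : ∀ p, f p ∈ riemannRochSpace A := fun p =>
    Fermat.Agent.RR.Adelic.riemannRochSpace_mono (hD_le p) (hfD p)
  -- vanishing pattern
  have hg0 : ∀ p' p, u (cen p') * f p ≠ 0 := fun p' p => mul_ne_zero (hu0 p') (hf0 p)
  have hT1 : ∀ p' p, cen p' ≠ cen p → τ p' (f p) = 0 := by
    intro p' p hne
    have hord : ((on p').card : ℤ) ≤ (cen p').ord (u (cen p') * f p) := by
      rw [(cen p').ord_mul (hu0 p') (hf0 p), hu p']
      have := (mem_riemannRochSpace_iff.mp (hfD p) (cen p')).resolve_left (hf0 p)
      rw [hD_other p p' hne] at this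
      omega
    exact taylorCoeff_eq_zero_of_le_ord (hdeg _) (ht p') (hg0 p' p) hord (hpos p')
  have hord_self : ∀ p' p, cen p' = cen p →
      (cen p').ord (u (cen p') * f p) = (pos p : ℤ) := by
    intro p' p he
    rw [(cen p').ord_mul (hu0 p') (hf0 p), hu p', he, hford p, hD_self p]
    ring
  have hT2 : ∀ p' p, cen p' = cen p → pos p' < pos p → τ p' (f p) = 0 := by
    intro p' p he hlt
    exact taylorCoeff_eq_zero_of_le_ord (hdeg _) (ht p') (hg0 p' p)
      (le_of_eq (hord_self p' p he).symm) hlt
  have hT3 : ∀ p, τ p (f p) ≠ 0 := fun p =>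
    taylorCoeff_ne_zero_of_ord_eq (hdeg _) (ht p) (hg0 p p) (hord_self p p rfl)
  -- coordinates of `f p`
  have hx : ∀ p, ∃ x : κ → K, ∑ j, x j • b j = f p := fun p =>
    Submodule.mem_span_range_iff_exists_fun K |>.mp (hspan (hfA p))
  choose x hx using hx
  -- linearity of the jets on `L(A)`
  have hlin : ∀ p' p, τ p' (f p) = ∑ j, x p j * τ p' (b j) := by
    intro p' p
    have hmem : ∀ j ∈ (Finset.univ : Finset κ),
        x p j • (u (cen p') * b j) ∈ (cen p').toValuationSubring := by
      intro j _
      rw [Algebra.smul_def]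
      exact mul_mem ((cen p').algebraMap_mem' (x p j))
        (mul_mem_valuationSubring (hu0 p') (hu p') (hb j))
    have h1 : u (cen p') * f p = ∑ j, x p j • (u (cen p') * b j) := by
      rw [← hx p, Finset.mul_sum]
      exact Finset.sum_congr rfl fun j _ => by rw [mul_smul_comm]
    show taylorCoeff (cen p') (t (cen p')) (pos p') (u (cen p') * f p) = _
    rw [h1, taylorCoeff_sum (hdeg _) (ht p') _ _ hmem]
    refine Finset.sum_congr rfl fun j _ => ?_
    rw [taylorCoeff_smul (hdeg _) (ht p') _
      (mul_mem_valuationSubring (hu0 p') (hu p') (hb j))]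
  -- the jet matrix
  set J : Matrix ι κ K := fun p j => τ p (b j) with hJ
  have hinjM : Function.Injective (Jᵀ).mulVec := by
    rw [← Matrix.coe_mulVecLin]
    refine (injective_iff_map_eq_zero _).mpr fun y hy => ?_
    rw [Matrix.mulVecLin_apply] at hy
    have hy' : ∀ j, ∑ p, J p j * y p = 0 := by
      intro j
      have := congrFun hy j
      simpa [Matrix.mulVec, dotProduct] using this
    have hcol : ∀ p0, ∑ p, y p * τ p (f p0) = 0 := by
      intro p0
      calc ∑ p, y p * τ p (f p0) = ∑ p, ∑ j, x p0 j * (J p j * y p) := by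
            refine Finset.sum_congr rfl fun p _ => ?_
            rw [hlin p p0, Finset.mul_sum]
            refine Finset.sum_congr rfl fun j _ => ?_
            rw [hJ]; ring
        _ = ∑ j, x p0 j * ∑ p, J p j * y p := by
            rw [Finset.sum_comm]
            refine Finset.sum_congr rfl fun j _ => ?_
            rw [Finset.mul_sum]
        _ = 0 := by simp [hy']
    by_contra hne
    classical
    have hS : (Finset.univ.filter fun p => y p ≠ 0).Nonempty := by
      by_contra hemp
      rw [Finset.not_nonempty_iff_eq_empty, Finset.filter_eq_empty_iff] at hemp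
      apply hne
      funext p
      have := hemp (Finset.mem_univ p)
      simpa using this
    obtain ⟨p1, hp1S, hmax⟩ := Finset.exists_max_image _ pos hS
    have hy1 : y p1 ≠ 0 := (Finset.mem_filter.mp hp1S).2
    have hsum := hcol p1
    rw [Finset.sum_eq_single p1] at hsum
    · exact (mul_ne_zero hy1 (hT3 p1)) hsum
    · intro p _ hpne
      by_cases hyp : y p = 0
      · rw [hyp, zero_mul]
      · have hle : pos p ≤ pos p1 := hmax p (Finset.mem_filter.mpr ⟨Finset.mem_univ p, hyp⟩)
        by_cases hcen : cen p = cen p1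
        · have hposne : pos p ≠ pos p1 := fun h => hpne (hinj (Prod.ext hcen h))
          rw [hT2 p p1 hcen (lt_of_le_of_ne hle hposne), mul_zero]
        · rw [hT1 p p1 hcen, mul_zero]
    · intro h
      exact absurd (Finset.mem_univ p1) h
  obtain ⟨c0, hc0⟩ := exists_minor_ne_zero_of_mulVec_injective Jᵀ hinjM
  refine ⟨c0, ?_⟩
  rw [Matrix.transpose_transpose, minorsAll_apply] at hc0
  exact hc0

variable (K F) in
/-- **(OSC)** in the consumer shape of board 4859 (5): the Riemann threshold `c` is uniform. -/
theorem exists_det_ne_zero (hdeg : ∀ P : Place K F, P.deg = 1) : ∃ c : ℤ,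
    ∀ {ι : Type*} [Fintype ι] [DecidableEq ι] [DecidableEq (Place K F)]
      (cen : ι → Place K F) (pos : ι → ℕ),
      (Function.Injective fun p => (cen p, pos p)) →
      (∀ p, pos p < (Finset.univ.filter fun p' => cen p' = cen p).card) →
      ∀ (A : Divisor K F), c + Fintype.card ι ≤ Divisor.degree A →
      ∀ (t u : Place K F → F), (∀ p, (cen p).ord (t (cen p)) = 1) →
      (∀ p, u (cen p) ≠ 0) → (∀ p, (cen p).ord (u (cen p)) = A (cen p)) →
      ∀ {κ : Type*} [Fintype κ] [DecidableEq κ] (b : κ → F),
      (∀ j, b j ∈ riemannRochSpace A) →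
      riemannRochSpace A ≤ Submodule.span K (Set.range b) →
      ∃ c0 : ι → κ, Matrix.det (fun p q : ι =>
        taylorCoeff (cen p) (t (cen p)) (pos p) (u (cen p) * b (c0 q))) ≠ 0 := by
  obtain ⟨c, hc⟩ := Fermat.Agent.RR.exists_ell_eq K F
  refine ⟨c, ?_⟩
  intro ι _ _ _ cen pos hinj hpos A hA t u ht hu0 hu κ _ _ b hb hspan
  exact exists_det_ne_zero_of_threshold (fun D hD => (hc D hD).1) hdeg cen pos hinj hpos A hA t u
    ht hu0 hu b hb hspan

variable (K F) in
/-- **(OSC)** for `A = L·∞`, regularising factor `q ^ L` at `∞` and `1` elsewhere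
(board 4859 (5) verbatim): `q` any function with a simple zero at `∞`. -/
theorem exists_det_ne_zero_inf (hdeg : ∀ P : Place K F, P.deg = 1) : ∃ c : ℤ,
    ∀ {ι : Type*} [Fintype ι] [DecidableEq ι] [DecidableEq (Place K F)]
      (cen : ι → Place K F) (pos : ι → ℕ),
      (Function.Injective fun p => (cen p, pos p)) →
      (∀ p, pos p < (Finset.univ.filter fun p' => cen p' = cen p).card) →
      ∀ (inf : Place K F) (q : F), inf.ord q = 1 →
      ∀ (L : ℕ), c + Fintype.card ι ≤ (L : ℤ) →
      ∀ (t : Place K F → F), (∀ p, (cen p).ord (t (cen p)) = 1) →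
      ∀ {κ : Type*} [Fintype κ] [DecidableEq κ] (b : κ → F),
      (∀ j, b j ∈ riemannRochSpace (Finsupp.single inf (L : ℤ))) →
      riemannRochSpace (Finsupp.single inf (L : ℤ)) ≤ Submodule.span K (Set.range b) →
      ∃ c0 : ι → κ, Matrix.det (fun p q' : ι =>
        taylorCoeff (cen p) (t (cen p)) (pos p)
          ((if cen p = inf then q ^ L else 1) * b (c0 q'))) ≠ 0 := by
  obtain ⟨c, hc⟩ := exists_det_ne_zero K F hdeg
  refine ⟨c, ?_⟩
  intro ι _ _ _ cen pos hinj hpos inf q hq L hL t ht κ _ _ b hb hspan
  have hq0 : q ≠ 0 := by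
    rintro rfl
    rw [Place.ord_zero] at hq
    omega
  have hA : c + Fintype.card ι ≤ Divisor.degree (Finsupp.single inf (L : ℤ)) := by
    rw [Divisor.degree_single, hdeg inf]
    simpa using hL
  exact hc cen pos hinj hpos (Finsupp.single inf (L : ℤ)) hA t
    (fun v => if v = inf then q ^ L else 1) ht
    (fun p => by
      show (if cen p = inf then q ^ L else 1) ≠ 0
      split_ifs
      · exact pow_ne_zero L hq0
      · exact one_ne_zero)
    (fun p => by
      show (cen p).ord (if cen p = inf then q ^ L else 1) = _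
      split_ifs with h
      · rw [h, Finsupp.single_eq_same, ← zpow_natCast, Place.ord_zpow, hq, mul_one]
      · rw [Finsupp.single_eq_of_ne h, Place.ord_one])
    b hb hspan

end Main

end Fermat.Agent.GR.H.LT.OscAbs
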